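import Fermat.Agent.OrdP.Dim1
import Fermat.Agent.RT.CotGen

/-!
# Local parameters of ordinary deformations at `p`
-/

set_option autoImplicit false
set_option linter.unusedSectionVars false
set_option linter.style.haveILetI false

namespace Fermat.Agent.OrdP

open Fermat.Agent.Coh Fermat.Agent.GalD Fermat.Agent.LocalCFT Module IntermediateField IsLocalRing
open Fermat.Agent.RT

variable {p : ℕ} [hp : Fact p.Prime]
variable {O A k : Type*} [CommRing O] [CommRing A] [IsLocalRing A] [Field k]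
  {φ : O →+* A} {π : A →+* k} {R : Gal(PadicAlgCl p/ℚ_[p]) →* Matrix (Fin 2) (Fin 2) A}

/-- the character of the quotient line -/
theorem UT.exists_psi (H : UT p (maximalIdeal A) R) (π : A →+* k) :
    ∃ ψ : Gal(PadicAlgCl p/ℚ_[p]) →* k, ∀ g, ψ g = π (R g 1 1) :=
  ⟨{ toFun := fun g => π (R g 1 1)
     map_one' := by rw [map_one, Matrix.one_apply_eq, map_one]
     map_mul' := fun g h => by rw [H.d_mul, map_mul] }, fun _ => rfl⟩

theorem UT.pi_ne_zero (H : UT p (maximalIdeal A) R) (π : A →+* k)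
    (g : Gal(PadicAlgCl p/ℚ_[p])) : π (R g 1 1) ≠ 0 := by
  intro h
  have h1 := H.d_mul g g⁻¹
  rw [mul_inv_cancel, map_one, Matrix.one_apply_eq] at h1
  have h2 := congrArg π h1
  rw [map_one, map_mul, h, zero_mul] at h2
  exact one_ne_zero h2

/-- Vanishing of a derivation on the diagonal entries. -/
theorem UT.der_diag (H : UT p (maximalIdeal A) R) (hker : RingHom.ker π = maximalIdeal A)
    (hpA : (p : A) ∈ maximalIdeal A) {D : A → k} (hD : D ∈ DerSp φ π) (d : Dat p)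
    (h : D (R d.φ 1 1) = 0) (g : Gal(PadicAlgCl p/ℚ_[p])) :
    D (R g 1 1) = 0 ∧ D (R g 0 0) = 0 ∧ π (R g 0 0) * π (R g 1 1) = π (R g).det := by
  let U : Subgroup Gal(PadicAlgCl p/ℚ_[p]) :=
    { carrier := {g | D (R g 1 1) = 0}
      one_mem' := by
        change D (R 1 1 1) = 0
        rw [map_one, Matrix.one_apply_eq, der_one hD]
      mul_mem' := fun {a b} ha hb => by
        change D (R (a * b) 1 1) = 0
        rw [H.d_mul, der_mul hD, show D (R a 1 1) = 0 from ha, show D (R b 1 1) = 0 from hb,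
          mul_zero, mul_zero, add_zero]
      inv_mem' := fun {a} ha => by
        change D (R a⁻¹ 1 1) = 0
        have h1 := H.d_mul a a⁻¹
        rw [mul_inv_cancel, map_one, Matrix.one_apply_eq] at h1
        have h2 := congrArg D h1
        rw [der_one hD, der_mul hD, show D (R a 1 1) = 0 from ha, mul_zero, add_zero] at h2
        exact (mul_eq_zero.mp h2.symm).resolve_left (H.pi_ne_zero π a) }
  have hIU : IL p ≤ U := fun g hg => by
    change D (R g 1 1) = 0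
    rw [H.inert g hg, der_one hD]
  have hU : (LF p).IsOpen U := by
    obtain ⟨W, hW, hWn⟩ := H.cont 2
    refine ⟨W, hW, fun w hw => ?_⟩
    change D (R w 1 1) = 0
    have h1 := hWn w hw 1 1
    rw [← hker] at h1
    have h2 := der_eq_zero_of_mem_sq hD h1
    rwa [der_sub hD, Matrix.one_apply_eq, der_one hD, sub_zero] at h2
  have h1 : ∀ g, D (R g 1 1) = 0 := by
    intro g
    obtain ⟨j, u, hu, rfl⟩ := eq_pow_mul_of_frob d.hφ hU hIU g
    exact U.mul_mem (U.pow_mem h j) hu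
  have hπp : π (p : A) = 0 := by
    have : (p : A) ∈ RingHom.ker π := by rw [hker]; exact hpA
    exact this
  have h2 : D (R g).det = 0 := by
    obtain ⟨e, he⟩ := exists_exp g 1
    have h3 := H.det 1 g e he
    rw [Ideal.mem_span_singleton] at h3
    obtain ⟨c, hc⟩ := h3
    rw [pow_one] at hc
    have h4 : (R g).det = φ (e : O) + φ (p : O) * c := by
      rw [map_natCast, map_natCast, ← hc]
      ring
    rw [h4, der_add hD, der_cst hD, der_mul hD, der_cst hD, map_natCast φ, hπp]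
    ring
  refine ⟨h1 g, ?_, by rw [H.det_eq, map_mul]⟩
  rw [H.det_eq, der_mul hD, h1 g, mul_zero, zero_add] at h2
  exact (mul_eq_zero.mp h2).resolve_left (H.pi_ne_zero π g)

/-- Vanishing of a derivation on the off-diagonal entry. -/
theorem UT.der_off (hker : RingHom.ker π = maximalIdeal A) (hpA : (p : A) ∈ maximalIdeal A)
    (H : UT p (maximalIdeal A) R) [Finite k]
    (hp2 : p ≠ 2) (d : Dat p) : ∃ σ₂ : Gal(PadicAlgCl p/ℚ_[p]), ∀ D ∈ DerSp φ π,
      D (R d.φ 1 1) = 0 → D (R d.τ 0 1) = 0 → D (R d.σ₁ 0 1) = 0 → D (R σ₂ 0 1) = 0 →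
      ∀ g i j, D (R g i j) = 0 := by
  have hπp : π (p : A) = 0 := by
    have : (p : A) ∈ RingHom.ker π := by rw [hker]; exact hpA
    exact this
  have hchar : CharP k p := by
    rw [CharP.charP_iff_prime_eq_zero hp.out, ← map_natCast π]
    exact hπp
  obtain ⟨ψ, hψ⟩ := H.exists_psi π
  have hψ0 : ∀ g, ψ g ≠ 0 := fun g => by rw [hψ]; exact H.pi_ne_zero π g
  let η : Gal(PadicAlgCl p/ℚ_[p]) →* k :=
    { toFun := fun g => (ψ g ^ 2)⁻¹
      map_one' := by rw [map_one, one_pow, inv_one]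
      map_mul' := fun g h => by rw [map_mul, mul_pow, mul_inv] }
  have hη : ∀ g ∈ IL p, η g = 1 := fun g hg => by
    change (ψ g ^ 2)⁻¹ = 1
    rw [hψ, H.inert g hg, map_one, one_pow, inv_one]
  obtain ⟨σ₂, hσ₂⟩ := exists_eval (k := k) hp2 d hη
  refine ⟨σ₂, fun D hD h1 h2 h3 h4 g => ?_⟩
  have hdiag := H.der_diag hker hpA hD d h1
  have hb : ∀ g h, D (R (g * h) 0 1) = π (R g 0 0) * D (R h 0 1) + D (R g 0 1) * ψ h := by
    intro g h
    rw [H.b_mul, der_add hD, der_mul hD, der_mul hD, (hdiag g).2.1, (hdiag h).1, hψ]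
    ring
  have hdet : ∀ (g : Gal(PadicAlgCl p/ℚ_[p])) (e : ℕ),
      (∀ ζ : PadicAlgCl p, ζ ^ p = 1 → g ζ = ζ ^ e) → π (R g 0 0) * ψ g = e := by
    intro g e he
    rw [hψ, (hdiag g).2.2]
    have h5 := H.det 1 g e (fun ζ hζ => he ζ (by rwa [pow_one] at hζ))
    rw [pow_one, Ideal.mem_span_singleton] at h5
    obtain ⟨c, hc⟩ := h5
    have h6 : (R g).det = (e : A) + (p : A) * c := by rw [← hc]; ring
    rw [h6, map_add, map_mul, hπp, zero_mul, add_zero, map_natCast]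
  have hβ : NC p η d.τ d.σ₁ (fun g => D (R g 0 1) * (ψ g)⁻¹) := by
    have hcoc : ∀ (g h : Gal(PadicAlgCl p/ℚ_[p])) (e : ℕ),
        (∀ ζ : PadicAlgCl p, ζ ^ p = 1 → g ζ = ζ ^ e) →
        D (R (g * h) 0 1) * (ψ (g * h))⁻¹ =
          e * η g * (D (R h 0 1) * (ψ h)⁻¹) + D (R g 0 1) * (ψ g)⁻¹ := by
      intro g h e he
      change _ = (e : k) * (ψ g ^ 2)⁻¹ * _ + _
      rw [hb, map_mul, ← hdet g e he]
      have := hψ0 g
      have := hψ0 h
      field_simp
    refine ⟨?_, hcoc, by rw [h2, zero_mul], by rw [h3, zero_mul]⟩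
    obtain ⟨W, hW, hWn⟩ := H.cont 2
    refine ⟨W, hW, fun g w hw => ?_⟩
    obtain ⟨e, he⟩ := exists_exp1 g
    have h5 := hWn w hw 0 1
    rw [← hker, Matrix.one_apply_ne (by decide), sub_zero] at h5
    have h6 := hcoc g w e he
    rw [der_eq_zero_of_mem_sq hD h5, zero_mul, mul_zero, zero_add] at h6
    exact h6
  have h5 := hσ₂ _ hβ (by rw [h4, zero_mul]) g
  have h6 : D (R g 0 1) = 0 := by
    rcases mul_eq_zero.mp h5 with h | h
    · exact h
    · exact absurd (inv_eq_zero.mp h) (hψ0 g)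
  intro i j
  fin_cases i <;> fin_cases j
  · exact (hdiag g).2.1
  · exact h6
  · change D (R g 1 0) = 0
    rw [H.low, der_zero hD]
  · exact (hdiag g).1

/-- **The parameters.** -/
theorem UT.exists_params (hker : RingHom.ker π = maximalIdeal A)
    (hsurj : ∀ x : k, ∃ o : O, π (φ o) = x)
    (hH : ∀ x : A, (∀ n, x ∈ maximalIdeal A ^ n) → x = 0)
    (hpA : (p : A) ∈ maximalIdeal A)
    (H : UT p (maximalIdeal A) R) [Finite k]
    (hp2 : p ≠ 2) (d : Dat p) : ∃ t z₁ z₂ z₃ : A,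
      t ∈ maximalIdeal A ∧ z₁ ∈ maximalIdeal A ∧ z₂ ∈ maximalIdeal A ∧ z₃ ∈ maximalIdeal A ∧
      t * z₃ = 0 ∧
      (∃ u : O, IsUnit (φ u) ∧ R d.φ 1 1 = φ u * (1 + t) ∧
        (π (R d.φ 1 1) ^ 2 = 1 → u ^ 2 = 1)) ∧
      (π (R d.φ 1 1) ^ 2 ≠ 1 → z₃ = 0) ∧
      (∃ u : O, R d.τ 0 1 = φ u + z₃ ∧ (π (R d.τ 0 1) = 0 → u = 0) ∧
        (π (R d.τ 0 1) ≠ 0 → t = 0)) ∧
      ∀ D ∈ DerSp φ π, D t = 0 → D z₁ = 0 → D z₂ = 0 → D z₃ = 0 → ∀ g i j, D (R g i j) = 0 := by
  have hmem : ∀ x : A, x ∈ maximalIdeal A ↔ π x = 0 := fun x => by rw [← hker]; exact Iff.rfl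
  have hunit : ∀ x : A, IsUnit x ↔ π x ≠ 0 := fun x => by
    rw [← not_iff_not, not_not, ← hmem]
    exact Iff.rfl
  obtain ⟨σ₂, hσ₂⟩ := UT.der_off (φ := φ) hker hpA H hp2 d
  have hπp : π (p : A) = 0 := (hmem _).mp hpA
  have h2k : (2 : k) ≠ 0 := by
    have hchar : CharP k p := by
      rw [CharP.charP_iff_prime_eq_zero hp.out, ← map_natCast π]
      exact hπp
    intro h
    have h1 : ((2 : ℕ) : k) = 0 := by exact_mod_cast h
    have h3 := (CharP.cast_eq_zero_iff k p 2).mp h1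
    exact hp2 ((Nat.prime_dvd_prime_iff_eq hp.out Nat.prime_two).mp h3)
  -- the unit `u`
  obtain ⟨u, huπ, hu2⟩ : ∃ u : O, π (φ u) = π (R d.φ 1 1) ∧
      (π (R d.φ 1 1) ^ 2 = 1 → u ^ 2 = 1) := by
    by_cases h : π (R d.φ 1 1) ^ 2 = 1
    · have h' : π (R d.φ 1 1) * π (R d.φ 1 1) = 1 := by rw [← sq]; exact h
      rcases mul_self_eq_one_iff.mp h' with h1 | h1
      · exact ⟨1, by rw [map_one, map_one, h1], fun _ => one_pow 2⟩
      · exact ⟨-1, by rw [map_neg, map_neg, map_one, map_one, h1], fun _ => by ring⟩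
    · obtain ⟨u, hu⟩ := hsurj (π (R d.φ 1 1))
      exact ⟨u, hu, fun h1 => absurd h1 h⟩
  have huu : IsUnit (φ u) := by
    rw [hunit, huπ]
    exact H.pi_ne_zero π d.φ
  obtain ⟨v, hv⟩ := huu.exists_right_inv
  set t := v * R d.φ 1 1 - 1 with ht
  have hdφ : R d.φ 1 1 = φ u * (1 + t) := by
    rw [ht]
    linear_combination (-(R d.φ 1 1)) * hv
  have htm : t ∈ maximalIdeal A := by
    rw [hmem]
    have h1 := congrArg π hdφ
    rw [map_mul, map_add, map_one, huπ] at h1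
    have h2 : π (R d.φ 1 1) * π t = 0 := by linear_combination -h1
    exact (mul_eq_zero.mp h2).resolve_left (H.pi_ne_zero π d.φ)
  -- `z₁`, `z₂`
  obtain ⟨o₁, ho₁⟩ := hsurj (π (R d.σ₁ 0 1))
  obtain ⟨o₂, ho₂⟩ := hsurj (π (R σ₂ 0 1))
  -- `z₃`
  have hrel := H.rel hpA hH d.hτ d.hτY d.φ
  obtain ⟨z₃, w, hw, hz₃m, htz, hz0, hw0, hwt⟩ : ∃ (z₃ : A) (w : O), R d.τ 0 1 = φ w + z₃ ∧
      z₃ ∈ maximalIdeal A ∧ t * z₃ = 0 ∧ (π (R d.φ 1 1) ^ 2 ≠ 1 → z₃ = 0) ∧
      (π (R d.τ 0 1) = 0 → w = 0) ∧ (π (R d.τ 0 1) ≠ 0 → t = 0) := by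
    by_cases h : π (R d.φ 1 1) ^ 2 = 1
    · have hu1 : φ u ^ 2 = 1 := by rw [← map_pow, hu2 h, map_one]
      have h1 : t * R d.τ 0 1 = 0 := by
        rw [hdφ, mul_pow, hu1] at hrel
        have h3 : IsUnit (2 + t) := by
          rw [hunit, map_add, (hmem t).mp htm, add_zero, map_ofNat]
          exact h2k
        have h4 : (2 + t) * (t * R d.τ 0 1) = 0 := by linear_combination hrel
        exact (h3.mul_right_eq_zero).mp h4
      by_cases h0 : π (R d.τ 0 1) = 0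
      · exact ⟨R d.τ 0 1, 0, by rw [map_zero, zero_add], (hmem _).mpr h0, h1,
          fun h3 => absurd h h3, fun _ => rfl, fun h3 => absurd h0 h3⟩
      · obtain ⟨w, hw⟩ := hsurj (π (R d.τ 0 1))
        have h3 : t = 0 := (((hunit _).mpr h0).mul_left_eq_zero).mp h1
        refine ⟨R d.τ 0 1 - φ w, w, by ring, ?_, by rw [h3, zero_mul], fun h4 => absurd h h4,
          fun h4 => absurd h4 h0, fun _ => h3⟩
        rw [hmem, map_sub, hw, sub_self]
    · have h1 : R d.τ 0 1 = 0 := by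
        have h3 : IsUnit ((R d.φ 1 1) ^ 2 - 1) := by
          rw [hunit, map_sub, map_pow, map_one]
          exact sub_ne_zero.mpr h
        exact (h3.mul_right_eq_zero).mp hrel
      refine ⟨0, 0, by rw [h1, map_zero, add_zero], zero_mem _, mul_zero _, fun _ => rfl,
        fun _ => rfl, fun h3 => absurd ?_ h3⟩
      rw [h1, map_zero]
  refine ⟨t, R d.σ₁ 0 1 - φ o₁, R σ₂ 0 1 - φ o₂, z₃, htm, ?_, ?_, hz₃m, htz,
    ⟨u, huu, hdφ, hu2⟩, hz0, ⟨w, hw, hw0, hwt⟩, ?_⟩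
  · rw [hmem, map_sub, ho₁, sub_self]
  · rw [hmem, map_sub, ho₂, sub_self]
  · intro D hD h1 h2 h3 h4
    refine hσ₂ D hD ?_ ?_ ?_ ?_
    · rw [hdφ, der_mul hD, der_add hD, der_one hD, h1, der_cst hD]
      ring
    · rw [hw, der_add hD, der_cst hD, h4, add_zero]
    · rw [der_sub hD, der_cst hD, sub_zero] at h2
      exact h2
    · rw [der_sub hD, der_cst hD, sub_zero] at h3
      exact h3

end Fermat.Agent.OrdP
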