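import Fermat.Agent.OrdP.Rel

/-!
# Classes of units of the maximal unramified extension modulo `p`-th powers
-/

set_option autoImplicit false
set_option linter.unusedSectionVars false
set_option linter.style.haveILetI false

namespace Fermat.Agent.OrdP

open Fermat.Agent.Coh Fermat.Agent.GalD Fermat.Agent.LocalCFT Module IntermediateField

variable {p : ℕ} [hp : Fact p.Prime]

local notation "Cp" => PadicAlgCl p
local notation "GG" => Gal(PadicAlgCl p/ℚ_[p])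

/-- the class of a unit of the maximal unramified extension modulo `p`-th powers -/
def Cl (φ : GG) (u : Cp) (x : KK p) : Prop :=
  ∃ z : OO p, rd z = x ∧ φ u = u ^ p * (1 + p * z)

theorem gal_mem_KI (σ : GG) {x : Cp} (hx : x ∈ KI p) : σ x ∈ KI p := by
  refine mem_fld.mpr fun g hg => ?_
  have h3 : (σ⁻¹ * g * σ) x = x := by
    refine mem_fld.mp hx _ ?_
    have := (inferInstance : (IL p).Normal).conj_mem g hg σ⁻¹
    rwa [inv_inv] at this
  have h4 := congrArg σ h3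
  rw [← AlgEquiv.mul_apply] at h4
  have h5 : σ * (σ⁻¹ * g * σ) = g * σ := by group
  rwa [h5, AlgEquiv.mul_apply] at h4

theorem norm_le_of_lt {x : Cp} (hx : x ∈ KI p) (h : ‖x‖ < 1) : ‖x‖ ≤ (p : ℝ)⁻¹ := by
  by_cases h0 : x = 0
  · rw [h0, norm_zero]
    exact inv_nonneg.mpr l_pos.le
  obtain ⟨k, hk⟩ := norm_of_fixed h0 fun g hg => mem_fld.mp hx g hg
  rw [hk] at h ⊢
  have h1 : k < 0 := by
    by_contra hcon
    push Not at hcon
    exact absurd h (not_lt.mpr (one_le_zpow₀ one_lt_l.le hcon))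
  rw [← zpow_neg_one]
  exact zpow_le_zpow_right₀ one_lt_l.le (by omega)

theorem ne_zero_of_norm {u : Cp} (hu1 : ‖u‖ = 1) : u ≠ 0 := by
  rintro rfl
  rw [norm_zero] at hu1
  exact zero_ne_one hu1

theorem exists_Cl {φ : GG} (hφ : ∀ y : KK p, gbar φ y = y ^ p) {u : Cp} (hu : u ∈ KI p)
    (hu1 : ‖u‖ = 1) : ∃ x, Cl φ u x := by
  have hu0 := ne_zero_of_norm hu1
  have h1 : ‖φ u - u ^ p‖ < 1 := by
    have h2 := hφ (rd ⟨u, mem_OO.mpr hu1.le⟩)
    rw [gbar_rd, ← map_pow, rd_eq_iff] at h2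
    exact h2
  have h2 : φ u / u ^ p - 1 ∈ KI p :=
    sub_mem (div_mem (gal_mem_KI φ hu) (pow_mem hu p)) (one_mem _)
  have h3 : ‖φ u / u ^ p - 1‖ < 1 := by
    rw [div_sub_one (pow_ne_zero _ hu0), norm_div, norm_pow, hu1, one_pow, div_one]
    exact h1
  have h4 := norm_le_of_lt h2 h3
  have h5 : ‖(φ u / u ^ p - 1) / p‖ ≤ 1 := by
    rw [norm_div, norm_l, div_le_one (inv_pos.mpr l_pos)]
    exact h4
  refine ⟨rd ⟨_, mem_OO.mpr h5⟩, ⟨_, mem_OO.mpr h5⟩, rfl, ?_⟩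
  change φ u = u ^ p * (1 + p * ((φ u / u ^ p - 1) / p))
  have := l_ne_zero (l := p)
  field_simp
  ring

theorem Cl.unique {φ : GG} {u : Cp} {x y : KK p} (hx : Cl φ u x) (hy : Cl φ u y) (hu : u ≠ 0) :
    x = y := by
  obtain ⟨z, rfl, hz⟩ := hx
  obtain ⟨z', rfl, hz'⟩ := hy
  have h1 := mul_left_cancel₀ (pow_ne_zero p hu) (hz.symm.trans hz')
  have h2 : (z : Cp) = z' := mul_left_cancel₀ l_ne_zero (add_left_cancel h1)
  rw [Subtype.ext h2]

theorem rd_natCast : rd ((p : ℕ) : OO p) = 0 := by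
  rw [rd_eq_zero_iff]
  exact norm_natCast_l

theorem Cl.mul {φ : GG} {u v : Cp} {x y : KK p} (hx : Cl φ u x) (hy : Cl φ v y) :
    Cl φ (u * v) (x + y) := by
  obtain ⟨z, rfl, hz⟩ := hx
  obtain ⟨z', rfl, hz'⟩ := hy
  refine ⟨z + z' + ((p : ℕ) : OO p) * z * z', ?_, ?_⟩
  · have h0 : IsLocalRing.residue (OO p) ((p : ℕ) : OO p) = 0 := rd_natCast
    change IsLocalRing.residue (OO p) (z + z' + ((p : ℕ) : OO p) * z * z') = _
    rw [map_add, map_add, map_mul, map_mul, h0, zero_mul, zero_mul, add_zero]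
  · rw [map_mul, hz, hz']
    change _ = (u * v) ^ p * (1 + p * ((z : Cp) + z' + (p : Cp) * z * z'))
    ring

theorem Cl.one (φ : GG) : Cl φ 1 (0 : KK p) := by
  refine ⟨0, map_zero _, ?_⟩
  change φ 1 = 1 ^ p * (1 + p * 0)
  rw [map_one, one_pow, mul_zero, add_zero, mul_one]

theorem Cl.pow {φ : GG} {u : Cp} {x : KK p} (hx : Cl φ u x) (n : ℕ) : Cl φ (u ^ n) (n • x) := by
  induction n with
  | zero => rw [pow_zero, zero_smul]; exact Cl.one φ
  | succ n ih =>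
    rw [pow_succ, succ_nsmul]
    exact ih.mul hx

theorem char_KK (x : KK p) : p • x = 0 := by
  rw [nsmul_eq_mul]
  have h1 : ((p : ℕ) : KK p) = rd ((p : ℕ) : OO p) := (map_natCast _ _).symm
  rw [h1, rd_natCast, zero_mul]

theorem Cl.frob {φ : GG} (hφ : ∀ y : KK p, gbar φ y = y ^ p) {u : Cp} {x : KK p}
    (hx : Cl φ u x) : Cl φ (φ u) (x ^ p) := by
  obtain ⟨z, rfl, hz⟩ := hx
  refine ⟨gOO φ z, ?_, ?_⟩
  · rw [← gbar_rd, hφ]
  · conv_lhs => rw [hz]
    rw [map_mul, map_pow, map_add, map_one, map_mul, map_natCast]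
    rfl

theorem Cl.pow_p {φ : GG} (hφ : ∀ y : KK p, gbar φ y = y ^ p) {w : Cp} (hw : w ∈ KI p)
    (hw1 : ‖w‖ = 1) : Cl φ (w ^ p) 0 := by
  obtain ⟨x, hx⟩ := exists_Cl hφ hw hw1
  have h1 := hx.pow p
  rwa [char_KK] at h1

/-- roots of unity of order `p`: the distance from `1` -/
theorem eq_one_of_norm_lt {z ξ : Cp} (hz : IsPrimitiveRoot z p) (hξ : ξ ^ p = 1)
    (h : ‖1 - ξ‖ < ‖1 - z‖) : ξ = 1 := by
  by_contra hne
  have h1 : IsPrimitiveRoot ξ p := by
    have h2 := orderOf_eq_prime hξ hne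
    have h3 := IsPrimitiveRoot.orderOf ξ
    rwa [h2] at h3
  exact h.ne (norm_one_sub_eq hp.out.ne_zero hz h1)

/-- **Hensel**: units of level two are `p`-th powers. -/
theorem exists_root (hp2 : p ≠ 2) {v : Cp} (hv : v ∈ KI p) (h : ‖1 - v‖ ≤ ((p : ℝ)⁻¹) ^ 2) :
    ∃ w ∈ KI p, w ^ p = v := by
  obtain ⟨z, hz⟩ := exists_prim (p := p) (Ω := PadicAlgCl p) 1
  rw [pow_one] at hz
  obtain ⟨w₀, hw₀⟩ := IsAlgClosed.exists_pow_nat_eq v hp.out.pos
  have hz1 : ‖1 - z‖ ^ (p - 1) = (p : ℝ)⁻¹ := by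
    have h1 := norm_one_sub_pow 0 (ζ := z) (by rwa [zero_add, pow_one])
    rwa [zero_add, pow_one, Nat.totient_prime hp.out] at h1
  have hprod : ∏ μ ∈ Polynomial.nthRootsFinset p (1 : Cp), (1 - μ * w₀) = 1 - v := by
    have := hz.pow_sub_pow_eq_prod_sub_mul 1 w₀ hp.out.pos
    rw [one_pow, hw₀] at this
    exact this.symm
  have hex : ∃ μ ∈ Polynomial.nthRootsFinset p (1 : Cp), ‖1 - μ * w₀‖ < ‖1 - z‖ := by
    by_contra hcon
    push Not at hcon
    have h1 : ‖1 - z‖ ^ p ≤ ((p : ℝ)⁻¹) ^ 2 := by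
      refine le_trans ?_ h
      have h5 := Finset.prod_const (s := Polynomial.nthRootsFinset p (1 : Cp)) ‖1 - z‖
      rw [hz.card_nthRootsFinset] at h5
      rw [← hprod, norm_prod, ← h5]
      exact Finset.prod_le_prod (fun _ _ => norm_nonneg _) fun μ hμ => hcon μ hμ
    have h2 : (‖1 - z‖ ^ p) ^ (p - 1) ≤ (((p : ℝ)⁻¹) ^ 2) ^ (p - 1) :=
      pow_le_pow_left₀ (pow_nonneg (norm_nonneg _) _) h1 _
    rw [← pow_mul, mul_comm p, pow_mul, hz1, ← pow_mul] at h2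
    have h3 : 2 * (p - 1) ≤ p := by
      by_contra hcon2
      push Not at hcon2
      exact absurd h2 (not_le.mpr (pow_lt_pow_right_of_lt_one₀ (inv_pos.mpr l_pos)
        (inv_lt_one_of_one_lt₀ one_lt_l) hcon2))
    have := hp.out.two_le
    omega
  obtain ⟨μ, hμ, hμw⟩ := hex
  have hμ1 : μ ^ p = 1 := (Polynomial.mem_nthRootsFinset hp.out.pos 1).mp hμ
  set w := μ * w₀ with hw
  have hwp : w ^ p = v := by rw [hw, mul_pow, hμ1, one_mul, hw₀]
  refine ⟨w, mem_fld.mpr fun g hg => ?_, hwp⟩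
  have hlt1 : ‖1 - z‖ < 1 := by
    by_contra hcon
    push Not at hcon
    have h1 := one_le_pow₀ hcon (n := p - 1)
    rw [hz1] at h1
    exact absurd h1 (not_le.mpr (inv_lt_one_of_one_lt₀ one_lt_l))
  have hw1 : ‖w‖ = 1 := by
    have h1 : ‖1 - w‖ < ‖(1 : Cp)‖ := by rw [norm_one]; exact hμw.trans hlt1
    have h2 := IsUltrametricDist.norm_add_eq_max_of_norm_ne_norm (x := (1 : Cp)) (y := -(1 - w))
      (by rw [norm_neg]; exact h1.ne')
    rw [← sub_eq_add_neg, norm_neg, sub_sub_cancel, max_eq_left h1.le, norm_one] at h2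
    exact h2
  have hw0 : w ≠ 0 := ne_zero_of_norm hw1
  have h1 : (g w / w) ^ p = 1 := by
    rw [div_pow, ← map_pow, hwp, mem_fld.mp hv g hg, div_self]
    rw [← hwp]
    exact pow_ne_zero _ hw0
  have h2 : g w / w = 1 := by
    refine eq_one_of_norm_lt hz h1 ?_
    have h3 : ‖1 - g w‖ < ‖1 - z‖ := by
      have : (1 : Cp) - g w = g (1 - w) := by rw [map_sub, map_one]
      rw [this, norm_gal]
      exact hμw
    have h4 : (1 : Cp) - g w / w = ((1 - g w) - (1 - w)) / w := by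
      field_simp
      ring
    rw [h4, norm_div, hw1, div_one, sub_eq_add_neg]
    exact lt_of_le_of_lt (IsUltrametricDist.norm_add_le_max _ _)
      (max_lt h3 (by rw [norm_neg]; exact hμw))
  rwa [div_eq_one_iff_eq hw0] at h2

/-- units of trivial class are `p`-th powers -/
theorem Cl.root (hp2 : p ≠ 2) {φ : GG} {u : Cp} (hu : u ∈ KI p)
    (hu1 : ‖u‖ = 1) (h : Cl φ u 0) : ∃ w ∈ KI p, w ^ p = u := by
  have hu0 := ne_zero_of_norm hu1
  obtain ⟨m, hm, hum⟩ := exists_mem_FF' (rd ⟨u, mem_OO.mpr hu1.le⟩)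
  rw [mem_FF'] at hum
  set v := u ^ (p ^ m - 1) with hv
  have hpm : p ^ m - 1 + 1 = p ^ m := Nat.sub_add_cancel (Nat.one_le_pow _ _ hp.out.pos)
  have hvK : v ∈ KI p := pow_mem hu _
  have hv1 : ‖v‖ = 1 := by rw [hv, norm_pow, hu1, one_pow]
  have hv0 := ne_zero_of_norm hv1
  have hvlt : ‖v - 1‖ < 1 := by
    rw [← map_pow, rd_eq_iff] at hum
    have h1 : ‖u ^ p ^ m - u‖ < 1 := hum
    have h2 : u ^ p ^ m - u = (v - 1) * u := by
      rw [hv, sub_mul, ← pow_succ, hpm, one_mul]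
    rwa [h2, norm_mul, hu1, mul_one] at h1
  have hvle := norm_le_of_lt (sub_mem hvK (one_mem _)) hvlt
  -- `v = 1 + p x`
  set x : Cp := (v - 1) / p with hx
  have hx1 : ‖x‖ ≤ 1 := by
    rw [hx, norm_div, norm_l, div_le_one (inv_pos.mpr l_pos)]
    exact hvle
  have hvx : v = 1 + p * x := by
    have := l_ne_zero (l := p)
    rw [hx]
    field_simp
    ring
  have hxK : x ∈ KI p := div_mem (sub_mem hvK (one_mem _)) (IntermediateField.natCast_mem _ p)
  have hClv : Cl φ v 0 := by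
    have := h.pow (p ^ m - 1)
    rwa [smul_zero] at this
  obtain ⟨z, hz, hφv⟩ := hClv
  have hzlt : ‖(z : Cp)‖ < 1 := (rd_eq_zero_iff z).mp hz
  -- `v ^ p = 1 + p² y`
  have hvp : ∃ y : Cp, ‖y‖ ≤ 1 ∧ v ^ p = 1 + p * (p * y) := by
    have h1 : ∃ y : OO p, (1 + ((p : ℕ) : OO p) * (⟨x, mem_OO.mpr hx1⟩ : OO p)) ^ p =
        1 + ((p : ℕ) : OO p) * (((p : ℕ) : OO p) * y) := by
      have h2 : ((p : ℕ) : OO p) ^ 2 ∣
          (1 + ((p : ℕ) : OO p) * (⟨x, mem_OO.mpr hx1⟩ : OO p)) ^ p - 1 ^ p := by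
        have h3 := dvd_sub_pow_of_dvd_sub (R := OO p) (p := p)
          (a := 1 + ((p : ℕ) : OO p) * (⟨x, mem_OO.mpr hx1⟩ : OO p)) (b := 1) (by
            rw [add_sub_cancel_left]
            exact dvd_mul_right _ _) 1
        rw [pow_one] at h3
        exact h3
      obtain ⟨y, hy⟩ := h2
      refine ⟨y, ?_⟩
      rw [one_pow, sub_eq_iff_eq_add] at hy
      rw [hy]
      ring
    obtain ⟨y, hy⟩ := h1
    refine ⟨y, mem_OO.mp y.2, ?_⟩
    have h3 := congrArg (Subtype.val : OO p → Cp) hy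
    rw [hvx]
    exact h3
  obtain ⟨y, hy1, hvp⟩ := hvp
  have hφx : φ x = z + (p * y + p * (p * y) * z) := by
    rw [hvp, hvx, map_add, map_one, map_mul, map_natCast] at hφv
    have h1 : (p : Cp) * φ x = p * (z + (p * y + p * (p * y) * z)) := by linear_combination hφv
    exact mul_left_cancel₀ l_ne_zero h1
  have hpn : ‖(p : Cp)‖ < 1 := norm_natCast_l
  have hxlt : ‖x‖ < 1 := by
    rw [← norm_gal φ x, hφx]
    refine lt_of_le_of_lt (IsUltrametricDist.norm_add_le_max _ _) (max_lt hzlt ?_)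
    refine lt_of_le_of_lt (IsUltrametricDist.norm_add_le_max _ _) (max_lt ?_ ?_)
    · rw [norm_mul]
      exact mul_lt_one_of_nonneg_of_lt_one_left (norm_nonneg _) hpn hy1
    · rw [norm_mul, norm_mul, norm_mul]
      exact mul_lt_one_of_nonneg_of_lt_one_left (by positivity)
        (mul_lt_one_of_nonneg_of_lt_one_left (norm_nonneg _) hpn
          (mul_le_one₀ hpn.le (norm_nonneg _) hy1)) hzlt.le
  have hxle := norm_le_of_lt hxK hxlt
  obtain ⟨w, hw, hwp⟩ := exists_root hp2 hvK (by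
    have h1 : (1 : Cp) - v = -(p * x) := by rw [hvx]; ring
    rw [h1, norm_neg, norm_mul, norm_l, sq]
    exact mul_le_mul_of_nonneg_left hxle (inv_nonneg.mpr l_pos.le))
  have hw0 : w ≠ 0 := by
    rintro rfl
    rw [zero_pow hp.out.ne_zero] at hwp
    exact hv0 hwp.symm
  refine ⟨u ^ p ^ (m - 1) / w, div_mem (pow_mem hu _) hw, ?_⟩
  rw [div_pow, hwp, ← pow_mul, ← pow_succ, Nat.sub_add_cancel (Nat.one_le_iff_ne_zero.mpr hm),
    div_eq_iff hv0, hv, ← pow_succ', hpm]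

end Fermat.Agent.OrdP
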