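import Fermat.Agent.OrdP.Cls

/-!
# The dimension of the space of peu ramifiees normalised cocycles
-/

set_option autoImplicit false
set_option linter.unusedSectionVars false
set_option linter.style.haveILetI false

namespace Fermat.Agent.OrdP

open Fermat.Agent.Coh Fermat.Agent.GalD Fermat.Agent.LocalCFT Module IntermediateField

variable {p : ℕ} [hp : Fact p.Prime]

local notation "Cp" => PadicAlgCl p
local notation "GG" => Gal(PadicAlgCl p/ℚ_[p])

/-- **Moore's determinant.** -/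
theorem moore {L : Type*} [Field L] [CharP L p] {k : Type*} [Field k] [Finite k]
    [Algebra (ZMod p) k] (ι : k →+* L) {f : ℕ} (b : Basis (Fin f) (ZMod p) k) (x : Fin f → L)
    (h : ∀ j : Fin f, ∑ i, ι (b i) ^ p ^ (j : ℕ) * x i = 0) : x = 0 := by
  classical
  by_contra hx
  set M : Matrix (Fin f) (Fin f) L := Matrix.of fun j i => ι (b i) ^ p ^ (j : ℕ) with hM
  have h1 : M.det = 0 := Matrix.exists_mulVec_eq_zero_iff.mp ⟨x, hx, funext fun j => h j⟩
  obtain ⟨v, hv, hvM⟩ := Matrix.exists_vecMul_eq_zero_iff.mpr h1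
  letI : Algebra (ZMod p) L := ZMod.algebra L p
  let F : k →+ L :=
    { toFun := fun a => ∑ j : Fin f, v j * ι a ^ p ^ (j : ℕ)
      map_zero' := by
        refine Finset.sum_eq_zero fun j _ => ?_
        rw [map_zero, zero_pow (pow_ne_zero _ hp.out.ne_zero), mul_zero]
      map_add' := fun a a' => by
        rw [← Finset.sum_add_distrib]
        refine Finset.sum_congr rfl fun j _ => ?_
        rw [map_add, add_pow_char_pow, mul_add] }
  have hF : AddMonoidHom.toZModLinearMap p F = 0 := b.ext fun i => congrFun hvM i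
  set P : Polynomial L := ∑ j : Fin f, Polynomial.C (v j) * Polynomial.X ^ p ^ (j : ℕ) with hP
  have hev : ∀ a : k, P.eval (ι a) = 0 := by
    intro a
    have h2 := LinearMap.congr_fun hF a
    rw [hP, Polynomial.eval_finsetSum]
    simp only [Polynomial.eval_mul, Polynomial.eval_C, Polynomial.eval_pow, Polynomial.eval_X]
    exact h2
  have hf : 0 < f := by
    by_contra hcon
    have : f = 0 := by omega
    subst this
    exact hv (funext fun j => j.elim0)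
  have hdeg : P.natDegree ≤ p ^ (f - 1) := by
    refine Polynomial.natDegree_sum_le_of_forall_le _ _ fun j _ => ?_
    refine (Polynomial.natDegree_C_mul_X_pow_le _ _).trans
      (Nat.pow_le_pow_right hp.out.pos ?_)
    have := j.2
    omega
  have := Fintype.ofFinite k
  have hcard : Fintype.card k = p ^ f := by
    have h2 := Module.card_eq_pow_finrank (K := ZMod p) (V := k)
    rw [Module.finrank_eq_card_basis b, Fintype.card_fin, ZMod.card] at h2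
    exact h2
  have hP0 : P = 0 := by
    refine Polynomial.eq_zero_of_natDegree_lt_card_of_eval_eq_zero' P
      (Finset.univ.image ι) (fun a ha => ?_) ?_
    · obtain ⟨a, -, rfl⟩ := Finset.mem_image.mp ha
      exact hev a
    · rw [Finset.card_image_of_injective _ ι.injective, Finset.card_univ, hcard]
      exact lt_of_le_of_lt hdeg (Nat.pow_lt_pow_right hp.out.one_lt (by omega))
  apply hv
  funext j
  have h2 := congrArg (fun Q => Polynomial.coeff Q (p ^ (j : ℕ))) hP0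
  simp only [hP, Polynomial.finsetSum_coeff, Polynomial.coeff_C_mul, Polynomial.coeff_X_pow,
    Polynomial.coeff_zero] at h2
  rw [Finset.sum_eq_single j] at h2
  · rw [if_pos rfl, mul_one] at h2
    exact h2
  · intro i _ hij
    rw [if_neg, mul_zero]
    intro h3
    exact hij (Fin.ext (Nat.pow_right_injective hp.out.two_le h3).symm)
  · intro h3
    exact absurd (Finset.mem_univ j) h3

variable {k : Type*} [Field k]

/-- normalised cocycles -/
structure NC (p : ℕ) [hp : Fact p.Prime] {k : Type*} [Field k]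
    (η : Gal(PadicAlgCl p/ℚ_[p]) →* k)
    (τ σ₁ : Gal(PadicAlgCl p/ℚ_[p])) (β : Gal(PadicAlgCl p/ℚ_[p]) → k) : Prop where
  smooth : ∃ W ∈ LF p, ∀ g, ∀ w ∈ W, β (g * w) = β g
  coc : ∀ (g h : Gal(PadicAlgCl p/ℚ_[p])) (e : ℕ), (∀ ζ : PadicAlgCl p, ζ ^ p = 1 → g ζ = ζ ^ e) →
    β (g * h) = e * η g * β h + β g
  tau : β τ = 0
  one : β σ₁ = 0

variable {η : Gal(PadicAlgCl p/ℚ_[p]) →* k} {τ σ₁ : Gal(PadicAlgCl p/ℚ_[p])}
  {β β' : Gal(PadicAlgCl p/ℚ_[p]) → k}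

theorem exists_exp1 (σ : GG) : ∃ e : ℕ, ∀ ζ : Cp, ζ ^ p = 1 → σ ζ = ζ ^ e := by
  obtain ⟨e, he⟩ := exists_exp σ 1
  exact ⟨e, fun ζ hζ => he ζ (by rwa [pow_one])⟩

theorem NC.add (h : NC p η τ σ₁ β) (h' : NC p η τ σ₁ β') :
    NC p η τ σ₁ (fun g => β g + β' g) where
  smooth := by
    obtain ⟨W, hW, h1⟩ := h.smooth
    obtain ⟨W', hW', h1'⟩ := h'.smooth
    exact ⟨W ⊓ W', (LF p).inf_mem W hW W' hW', fun g w hw => by rw [h1 g w hw.1, h1' g w hw.2]⟩
  coc g g' e he := by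
    rw [h.coc g g' e he, h'.coc g g' e he]
    ring
  tau := by rw [h.tau, h'.tau, add_zero]
  one := by rw [h.one, h'.one, add_zero]

theorem NC.smul (h : NC p η τ σ₁ β) (a : k) : NC p η τ σ₁ (fun g => a * β g) where
  smooth := by
    obtain ⟨W, hW, h1⟩ := h.smooth
    exact ⟨W, hW, fun g w hw => by rw [h1 g w hw]⟩
  coc g g' e he := by
    rw [h.coc g g' e he]
    ring
  tau := by rw [h.tau, mul_zero]
  one := by rw [h.one, mul_zero]

variable [Algebra (ZMod p) k]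

/-- Kummer generators -/
def KumEl {z : Cp} (hz : z ^ p = 1) (β : GG → k) (Λ : k →ₗ[ZMod p] ZMod p) (y : Cp) : Prop :=
  ‖y‖ = 1 ∧ y ^ p ∈ KI p ∧ ∀ g ∈ IL p, g y = AddChar.zmodChar p hz (Λ (β g)) * y

theorem zc_inj {z : Cp} (hz : IsPrimitiveRoot z p) {a : ZMod p}
    (h : AddChar.zmodChar p hz.pow_eq_one a = 1) : a = 0 := by
  rw [AddChar.zmodChar_apply] at h
  have h1 := (hz.pow_eq_one_iff_dvd _).mp h
  have h2 := Nat.eq_zero_of_dvd_of_lt h1 (ZMod.val_lt a)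
  exact (ZMod.val_eq_zero a).mp h2

theorem zc_pow {z : Cp} (hz : z ^ p = 1) (a : ZMod p) : (AddChar.zmodChar p hz a) ^ p = 1 := by
  rw [AddChar.zmodChar_apply, ← pow_mul, mul_comm, pow_mul, hz, one_pow]

theorem gal_zc {z : Cp} (hz : z ^ p = 1) {g : GG} {e : ℕ} (he : ∀ ζ : Cp, ζ ^ p = 1 → g ζ = ζ ^ e)
    (a : ZMod p) : g (AddChar.zmodChar p hz a) = AddChar.zmodChar p hz ((e : ZMod p) * a) := by
  rw [he _ (zc_pow hz a), ← AddChar.map_nsmul_eq_pow, nsmul_eq_mul]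

theorem NC.coc_inertia (h : NC p η τ σ₁ β) (hη : ∀ g ∈ IL p, η g = 1) {g : GG} (hg : g ∈ IL p)
    (g' : GG) {e : ℕ} (he : ∀ ζ : Cp, ζ ^ p = 1 → g ζ = ζ ^ e) :
    β (g * g') = e * β g' + β g := by
  rw [h.coc g g' e he, hη g hg, mul_one]

theorem map_natCast_mul (Λ : k →ₗ[ZMod p] ZMod p) (e : ℕ) (x : k) :
    Λ (e * x) = e * Λ x := by
  rw [← nsmul_eq_mul, map_nsmul, nsmul_eq_mul]

/-- existence of Kummer generators -/
theorem NC.exists_kum (h : NC p η τ σ₁ β) (hη : ∀ g ∈ IL p, η g = 1) (hτ : τ ∈ IL p)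
    (hτY : ∀ y ∈ YL p, τ y = y) {ϖ : Cp} (hϖ : ϖ ^ p = p) (hτϖ : τ ϖ ≠ ϖ) {z : Cp}
    (hz : IsPrimitiveRoot z p) (Λ : k →ₗ[ZMod p] ZMod p) :
    ∃ y, KumEl hz.pow_eq_one β Λ y := by
  set ψ := AddChar.zmodChar p hz.pow_eq_one with hψ
  have hψ0 : ∀ a, ψ a ≠ 0 := fun a h0 => by
    have := zc_pow hz.pow_eq_one a
    rw [← hψ, h0, zero_pow hp.out.ne_zero] at this
    exact zero_ne_one this
  obtain ⟨y₁, hy₁⟩ := h90_sub (IL p)
    (fun g => Additive.ofMul (Units.mk0 (ψ (Λ (β g))) (hψ0 _))) (by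
      obtain ⟨W, hW, h1⟩ := h.smooth
      refine ⟨_, ⟨W, hW, rfl⟩, fun g w hw => ?_⟩
      have h2 : β ((g * w : IL p) : GG) = β g := h1 g w hw
      simp only [h2]) (by
      intro g g'
      obtain ⟨e, he⟩ := exists_exp1 (g : GG)
      apply uval_injective
      rw [uval_add, uval_unitsRep]
      change ψ (Λ (β ((g : GG) * g'))) = (g : GG) (ψ (Λ (β g'))) * ψ (Λ (β g))
      rw [h.coc_inertia hη g.2 g' he, map_add, map_natCast_mul, gal_zc _ he, AddChar.map_add_eq_mul])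
  set y := uval y₁ with hy
  have hy0 : y ≠ 0 := uval_ne_zero y₁
  have hgy : ∀ g ∈ IL p, g y = ψ (Λ (β g)) * y := by
    intro g hg
    have h1 := congrArg uval (hy₁ ⟨g, hg⟩)
    rw [uval_sub, uval_unitsRep] at h1
    change ψ (Λ (β g)) = g y / y at h1
    rw [h1, div_mul_cancel₀ _ hy0]
  have hyK : y ^ p ∈ KI p := by
    refine mem_fld.mpr fun g hg => ?_
    rw [map_pow, hgy g hg, mul_pow, zc_pow, one_mul]
  have hϖ0 : ϖ ≠ 0 := by
    rintro rfl
    rw [zero_pow hp.out.ne_zero] at hϖ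
    exact l_ne_zero hϖ.symm
  obtain ⟨r, hr⟩ := norm_of_fixed (pow_ne_zero p hy0) fun g hg => mem_fld.mp hyK g hg
  have hpow : (y * ϖ ^ r) ^ p = y ^ p * (p : Cp) ^ r := by
    rw [mul_pow, ← zpow_natCast (ϖ ^ r), ← zpow_mul, mul_comm r, zpow_mul, zpow_natCast, hϖ]
  have hpK : y ^ p * (p : Cp) ^ r ∈ KI p :=
    mul_mem hyK (zpow_mem (IntermediateField.natCast_mem _ p) _)
  have hnorm : ‖y ^ p * (p : Cp) ^ r‖ = 1 := by
    rw [norm_mul, hr, norm_zpow, norm_l, inv_zpow, mul_inv_cancel₀ (zpow_ne_zero _ l_pos.ne')]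
  have hyϖ : y * ϖ ^ r ∈ YL p := by
    refine ⟨?_, 1, by rw [pow_one, hpow]; exact hpK⟩
    have h3 : ‖(y * ϖ ^ r)‖ ^ p = 1 := by rw [← norm_pow, hpow, hnorm]
    exact (pow_eq_one_iff_of_nonneg (norm_nonneg _) hp.out.ne_zero).mp h3
  have hτr : τ ϖ ^ r = ϖ ^ r := by
    have h1 := hτY _ hyϖ
    rw [map_mul, map_zpow₀, hgy τ hτ, h.tau, map_zero, AddChar.map_zero_eq_one, one_mul] at h1
    exact mul_left_cancel₀ hy0 h1
  have hξ : IsPrimitiveRoot (τ ϖ / ϖ) p := by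
    have h1 : (τ ϖ / ϖ) ^ p = 1 := by rw [div_pow, ← map_pow, hϖ, map_natCast, div_self l_ne_zero]
    have h2 : τ ϖ / ϖ ≠ 1 := by rwa [Ne, div_eq_one_iff_eq hϖ0]
    have h3 := orderOf_eq_prime h1 h2
    have h4 := IsPrimitiveRoot.orderOf (τ ϖ / ϖ)
    rwa [h3] at h4
  have hpr : (p : ℤ) ∣ r := by
    rw [← hξ.zpow_eq_one_iff_dvd, div_zpow, hτr, div_self (zpow_ne_zero _ hϖ0)]
  obtain ⟨s, rfl⟩ := hpr
  have hpow2 : (y * (p : Cp) ^ s) ^ p = y ^ p * (p : Cp) ^ ((p : ℤ) * s) := by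
    rw [mul_pow, ← zpow_natCast ((p : Cp) ^ s), ← zpow_mul, mul_comm s]
  refine ⟨y * (p : Cp) ^ s, ?_, ?_, ?_⟩
  · have h3 : ‖(y * (p : Cp) ^ s)‖ ^ p = 1 := by rw [← norm_pow, hpow2, hnorm]
    exact (pow_eq_one_iff_of_nonneg (norm_nonneg _) hp.out.ne_zero).mp h3
  · rw [hpow2]
    exact hpK
  · intro g hg
    rw [map_mul, hgy g hg, map_zpow₀, map_natCast, mul_assoc]

/-- the value of the class on a functional -/
def XR {z : Cp} (hz : z ^ p = 1) (φ : GG) (β : GG → k) (Λ : k →ₗ[ZMod p] ZMod p) (x : KK p) :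
    Prop := ∃ y, KumEl hz β Λ y ∧ Cl φ (y ^ p) x

theorem XR.unique {z : Cp} (hz : z ^ p = 1) {φ : GG} (hφ : ∀ y : KK p, gbar φ y = y ^ p)
    {Λ : k →ₗ[ZMod p] ZMod p} {x x' : KK p} (h : XR hz φ β Λ x) (h' : XR hz φ β Λ x') :
    x = x' := by
  obtain ⟨y, ⟨h1, h2, h3⟩, h4⟩ := h
  obtain ⟨y', ⟨h1', h2', h3'⟩, h4'⟩ := h'
  have hy0 := ne_zero_of_norm h1
  have hy0' := ne_zero_of_norm h1'
  have hw : y / y' ∈ KI p := by
    refine mem_fld.mpr fun g hg => ?_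
    have hne : AddChar.zmodChar p hz (Λ (β g)) ≠ 0 := fun h0 => by
      have := zc_pow hz (Λ (β g))
      rw [h0, zero_pow hp.out.ne_zero] at this
      exact zero_ne_one this
    rw [map_div₀, h3 g hg, h3' g hg, mul_div_mul_left _ _ hne]
  have hw1 : ‖y / y'‖ = 1 := by rw [norm_div, h1, h1', div_one]
  have h5 := (Cl.pow_p hφ hw hw1).mul h4'
  rw [← mul_pow, div_mul_cancel₀ _ hy0', zero_add] at h5
  exact h4.unique h5 (pow_ne_zero _ hy0)

theorem NC.exists_XR (h : NC p η τ σ₁ β) (hη : ∀ g ∈ IL p, η g = 1) (hτ : τ ∈ IL p)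
    (hτY : ∀ y ∈ YL p, τ y = y) {ϖ : Cp} (hϖ : ϖ ^ p = p) (hτϖ : τ ϖ ≠ ϖ) {z : Cp}
    (hz : IsPrimitiveRoot z p) {φ : GG} (hφ : ∀ y : KK p, gbar φ y = y ^ p)
    (Λ : k →ₗ[ZMod p] ZMod p) : ∃ x, XR hz.pow_eq_one φ β Λ x := by
  obtain ⟨y, hy⟩ := h.exists_kum hη hτ hτY hϖ hτϖ hz Λ
  obtain ⟨x, hx⟩ := exists_Cl hφ hy.2.1 (by rw [norm_pow, hy.1, one_pow])
  exact ⟨x, y, hy, hx⟩

theorem XR.add {z : Cp} {hz : z ^ p = 1} {φ : GG}
    {Λ Λ' : k →ₗ[ZMod p] ZMod p} {β₂ : GG → k}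
    (hadd : ∀ g, Λ' (β₂ g) = Λ (β g) + Λ (β' g)) {x x' : KK p}
    (h : XR hz φ β Λ x) (h' : XR hz φ β' Λ x') : XR hz φ β₂ Λ' (x + x') := by
  obtain ⟨y, ⟨h1, h2, h3⟩, h4⟩ := h
  obtain ⟨y', ⟨h1', h2', h3'⟩, h4'⟩ := h'
  refine ⟨y * y', ⟨by rw [norm_mul, h1, h1', one_mul], by rw [mul_pow]; exact mul_mem h2 h2',
    fun g hg => ?_⟩, by rw [mul_pow]; exact h4.mul h4'⟩
  rw [map_mul, h3 g hg, h3' g hg, hadd, AddChar.map_add_eq_mul]
  ring

theorem XR.add₂ {z : Cp} {hz : z ^ p = 1} {φ : GG}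
    {Λ Λ' : k →ₗ[ZMod p] ZMod p} {x x' : KK p}
    (h : XR hz φ β Λ x) (h' : XR hz φ β Λ' x') : XR hz φ β (Λ + Λ') (x + x') := by
  obtain ⟨y, ⟨h1, h2, h3⟩, h4⟩ := h
  obtain ⟨y', ⟨h1', h2', h3'⟩, h4'⟩ := h'
  refine ⟨y * y', ⟨by rw [norm_mul, h1, h1', one_mul], by rw [mul_pow]; exact mul_mem h2 h2',
    fun g hg => ?_⟩, by rw [mul_pow]; exact h4.mul h4'⟩
  rw [map_mul, h3 g hg, h3' g hg, LinearMap.add_apply, AddChar.map_add_eq_mul]
  ring

/-- the Frobenius relation -/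
theorem NC.XR_frob (h : NC p η τ σ₁ β) (hη : ∀ g ∈ IL p, η g = 1) {z : Cp}
    {hz : z ^ p = 1} {φ : GG} (hφ : ∀ y : KK p, gbar φ y = y ^ p)
    {Λ : k →ₗ[ZMod p] ZMod p} {x : KK p} (hx : XR hz φ (fun g => η φ * β g) Λ x) :
    XR hz φ β Λ (x ^ p) := by
  obtain ⟨y, ⟨h1, h2, h3⟩, h4⟩ := hx
  set ψ := AddChar.zmodChar p hz with hψ
  set a := Λ (β φ) with ha
  have hψ1 : ψ (-a) ^ p = 1 := zc_pow hz _
  refine ⟨φ y * ψ (-a), ⟨?_, ?_, fun g hg => ?_⟩, ?_⟩
  · rw [norm_mul, norm_gal, h1, one_mul, norm_of_pow_eq_one hp.out.ne_zero hψ1]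
  · rw [mul_pow, hψ1, mul_one, ← map_pow]
    exact gal_mem_KI φ h2
  · obtain ⟨e, he⟩ := exists_exp1 g
    obtain ⟨e', he'⟩ := exists_exp1 φ
    set g' := φ⁻¹ * g * φ with hg'
    have hg'I : g' ∈ IL p := by
      have := (inferInstance : (IL p).Normal).conj_mem g hg φ⁻¹
      rwa [inv_inv] at this
    have h5 : g * φ = φ * g' := by rw [hg']; group
    have h6 : g (φ y) = φ (g' y) := by
      rw [← AlgEquiv.mul_apply, ← AlgEquiv.mul_apply, h5]
    have h7 := h.coc φ g' e' he'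
    rw [← h5, h.coc_inertia hη hg φ he] at h7
    -- h7 : e * β φ + β g = e' * η φ * β g' + β φ
    have h8 : (e' : ZMod p) * Λ (η φ * β g') = (e : ZMod p) * a + Λ (β g) - a := by
      rw [ha, ← map_natCast_mul, ← map_natCast_mul, ← map_add, ← map_sub, h7]
      congr 1
      ring
    rw [map_mul, h6, h3 g' hg'I, map_mul, gal_zc hz he', gal_zc hz he, ← hψ, h8]
    have h9 : ψ ((e : ZMod p) * a + Λ (β g) - a) * ψ ((e : ZMod p) * -a) =
        ψ (Λ (β g)) * ψ (-a) := by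
      rw [← AddChar.map_add_eq_mul, ← AddChar.map_add_eq_mul]
      congr 1
      ring
    linear_combination (φ y) * h9
  · rw [mul_pow, hψ1, mul_one, ← map_pow]
    exact h4.frob hφ

/-- the kernel -/
theorem NC.eq_zero (hp2 : p ≠ 2) (h : NC p η τ σ₁ β) (hη : ∀ g ∈ IL p, η g = 1) {z : Cp}
    (hz : IsPrimitiveRoot z p) {φ : GG} (hσ₁ : σ₁ ∈ IL p)
    (hσ₁z : σ₁ z ≠ z) (hx : ∀ Λ : k →ₗ[ZMod p] ZMod p, XR hz.pow_eq_one φ β Λ 0) (g : GG) :
    β g = 0 := by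
  set ψ := AddChar.zmodChar p hz.pow_eq_one with hψ
  obtain ⟨e₁, he₁⟩ := exists_exp1 σ₁
  have he₁1 : (e₁ : ZMod p) ≠ 1 := by
    intro hcon
    apply hσ₁z
    have h1 := gal_zc hz.pow_eq_one he₁ 1
    rw [hcon, one_mul] at h1
    have h2 : AddChar.zmodChar p hz.pow_eq_one 1 = z := by
      have := AddChar.zmodChar_apply' (n := p) hz.pow_eq_one 1
      rwa [Nat.cast_one, pow_one] at this
    rwa [h2] at h1
  have hI : ∀ g ∈ IL p, β g = 0 := by
    intro g hg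
    -- all functionals vanish
    have h0 : ∀ Λ : k →ₗ[ZMod p] ZMod p, Λ (β g) = 0 := by
      intro Λ
      obtain ⟨y, ⟨h1, h2, h3⟩, h4⟩ := hx Λ
      obtain ⟨w, hw, hwp⟩ := h4.root hp2 h2 (by rw [norm_pow, h1, one_pow])
      have hy0 := ne_zero_of_norm h1
      have hw0 : w ≠ 0 := by
        rintro rfl
        rw [zero_pow hp.out.ne_zero] at hwp
        exact pow_ne_zero p hy0 hwp.symm
      have h5 : (y / w) ^ p = 1 := by rw [div_pow, hwp, div_self (pow_ne_zero _ hy0)]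
      obtain ⟨i, -, hi⟩ := hz.eq_pow_of_pow_eq_one h5
      have h6 : y = ψ (i : ZMod p) * w := by
        rw [hψ, AddChar.zmodChar_apply', hi, div_mul_cancel₀ _ hw0]
      have hψ0 : ψ (i : ZMod p) ≠ 0 := by
        intro h0
        rw [h0, zero_mul] at h6
        exact hy0 h6
      have key : ∀ g ∈ IL p, ∀ e : ℕ, (∀ ζ : Cp, ζ ^ p = 1 → g ζ = ζ ^ e) →
          Λ (β g) = (e : ZMod p) * i - i := by
        intro g hg e he
        have h7 := h3 g hg
        rw [← hψ] at h7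
        conv_lhs at h7 => rw [h6]
        rw [map_mul, hψ, gal_zc _ he, ← hψ, mem_fld.mp hw g hg, h6, ← mul_assoc] at h7
        have h8 := mul_right_cancel₀ hw0 h7
        rw [← sub_eq_zero]
        apply zc_inj hz
        have h9 : Λ (β g) - ((e : ZMod p) * i - i) = (Λ (β g) + i) - (e : ZMod p) * i := by ring
        rw [h9, AddChar.map_sub_eq_div, AddChar.map_add_eq_mul, ← hψ, ← h8, div_self]
        rw [h8]
        refine mul_ne_zero ?_ hψ0
        intro h0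
        have := zc_pow hz.pow_eq_one (Λ (β g))
        rw [← hψ, h0, zero_pow hp.out.ne_zero] at this
        exact zero_ne_one this
      have h7 := key σ₁ hσ₁ e₁ he₁
      rw [h.one, map_zero] at h7
      have h8 : ((e₁ : ZMod p) - 1) * (i : ZMod p) = 0 := by rw [h7]; ring
      have h9 := (mul_eq_zero.mp h8).resolve_left (sub_ne_zero.mpr he₁1)
      obtain ⟨e, he⟩ := exists_exp1 g
      rw [key g hg e he, h9, mul_zero, sub_zero]
    exact (Module.forall_dual_apply_eq_zero_iff (ZMod p) (β g)).mp h0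
  -- from inertia to the whole group
  have h1 := h.coc_inertia hη hσ₁ g he₁
  rw [h.one, add_zero] at h1
  set g' := g⁻¹ * σ₁ * g with hg'
  have hg'I : g' ∈ IL p := by
    have := (inferInstance : (IL p).Normal).conj_mem σ₁ hσ₁ g⁻¹
    rwa [inv_inv] at this
  have h5 : σ₁ * g = g * g' := by rw [hg']; group
  obtain ⟨e, he⟩ := exists_exp1 g
  rw [h5, h.coc g g' e he, hI g' hg'I, mul_zero, zero_add] at h1
  have h2 : ((e₁ : k) - 1) * β g = 0 := by rw [sub_mul, one_mul, ← h1, sub_self]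
  refine (mul_eq_zero.mp h2).resolve_left ?_
  intro h3
  apply he₁1
  have h4 : algebraMap (ZMod p) k ((e₁ : ZMod p) - 1) = 0 := by
    rw [map_sub, map_natCast, map_one]
    exact h3
  exact sub_eq_zero.mp ((map_eq_zero _).mp h4)

end Fermat.Agent.OrdP
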