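import Fermat.Agent.OrdP.Dim

/-!
# The space of normalised cocycles is at most one-dimensional
-/

set_option autoImplicit false
set_option linter.unusedSectionVars false
set_option linter.style.haveILetI false

namespace Fermat.Agent.OrdP

open Fermat.Agent.Coh Fermat.Agent.GalD Fermat.Agent.LocalCFT Module IntermediateField

variable {p : ℕ} [hp : Fact p.Prime]

/-- a choice of auxiliary elements -/
structure Dat (p : ℕ) [hp : Fact p.Prime] where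
  /-- Frobenius -/
  φ : Gal(PadicAlgCl p/ℚ_[p])
  /-- the element detecting the valuation -/
  τ : Gal(PadicAlgCl p/ℚ_[p])
  /-- an element of inertia moving roots of unity -/
  σ₁ : Gal(PadicAlgCl p/ℚ_[p])
  /-- a root of `p` -/
  ϖ : PadicAlgCl p
  /-- a root of unity -/
  z : PadicAlgCl p
  hφ : ∀ y : KK p, gbar φ y = y ^ p
  hτ : τ ∈ IL p
  hτY : ∀ y ∈ YL p, τ y = y
  hϖ : ϖ ^ p = p
  hτϖ : τ ϖ ≠ ϖ
  hz : IsPrimitiveRoot z p
  hσ₁ : σ₁ ∈ IL p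
  hσ₁z : σ₁ z ≠ z

theorem exists_dat (hp2 : p ≠ 2) : Nonempty (Dat p) := by
  obtain ⟨φ, hφ⟩ := exists_frob (l := p)
  obtain ⟨ϖ, hϖ⟩ := IsAlgClosed.exists_pow_nat_eq (p : PadicAlgCl p) hp.out.pos
  obtain ⟨τ, hτ, hτY, hτϖ⟩ := exists_tau hp2 hϖ
  obtain ⟨z, hz⟩ := exists_prim (p := p) (Ω := PadicAlgCl p) 1
  rw [pow_one] at hz
  obtain ⟨σ₁, hσ₁, hσ₁z⟩ := exists_moves hp2 hz
  exact ⟨⟨φ, τ, σ₁, ϖ, z, hφ, hτ, hτY, hϖ, hτϖ, hz, hσ₁, hσ₁z⟩⟩

theorem pair_comm {L : Type*} [Field L] [Algebra (ZMod p) L] {k : Type*} [Field k]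
    [Algebra (ZMod p) k] {f : ℕ} (b : Basis (Fin f) (ZMod p) k) (E : k →ₗ[ZMod p] L)
    (X : (k →ₗ[ZMod p] ZMod p) →ₗ[ZMod p] L) (a : k) :
    ∑ i, E (b i) * X (b.coord i ∘ₗ LinearMap.mulLeft (ZMod p) a) =
      ∑ i, E (a * b i) * X (b.coord i) := by
  classical
  have h1 : ∀ i, b.coord i ∘ₗ LinearMap.mulLeft (ZMod p) a =
      ∑ l, (b.coord i (a * b l)) • b.coord l := by
    intro i
    refine b.ext fun m => ?_
    rw [LinearMap.sum_apply, Finset.sum_eq_single m]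
    · rw [LinearMap.smul_apply, Basis.coord_apply b m (b m), Basis.repr_self,
        Finsupp.single_eq_same, smul_eq_mul, mul_one]
      rfl
    · intro l _ hl
      rw [LinearMap.smul_apply, Basis.coord_apply b l (b m), Basis.repr_self,
        Finsupp.single_eq_of_ne hl, smul_zero]
    · intro h
      exact absurd (Finset.mem_univ m) h
  have h2 : ∀ l, E (a * b l) = ∑ i, (b.coord i (a * b l)) • E (b i) := by
    intro l
    conv_lhs => rw [← b.sum_repr (a * b l)]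
    rw [map_sum]
    refine Finset.sum_congr rfl fun i _ => ?_
    rw [map_smul]
    rfl
  simp_rw [h1, map_sum, map_smul, Finset.mul_sum]
  rw [Finset.sum_comm]
  refine Finset.sum_congr rfl fun l _ => ?_
  rw [h2, Finset.sum_mul]
  refine Finset.sum_congr rfl fun i _ => ?_
  rw [mul_smul_comm, smul_mul_assoc]

/-- **One-dimensionality.** -/
theorem dim_one (hp2 : p ≠ 2) (D : Dat p) {k : Type*} [Field k] [Finite k] [CharP k p]
    {η : Gal(PadicAlgCl p/ℚ_[p]) →* k} (hη : ∀ g ∈ IL p, η g = 1)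
    {β β₀ : Gal(PadicAlgCl p/ℚ_[p]) → k} (hβ : NC p η D.τ D.σ₁ β) (hβ₀ : NC p η D.τ D.σ₁ β₀)
    (hne : ∃ g, β₀ g ≠ 0) : ∃ a : k, ∀ g, β g = a * β₀ g := by
  classical
  letI : Algebra (ZMod p) k := ZMod.algebra k p
  letI : Algebra (ZMod p) (KK p) := ZMod.algebra (KK p) p
  have : Fintype k := Fintype.ofFinite k
  set f := finrank (ZMod p) k with hf
  have hf0 : f ≠ 0 := Module.finrank_pos.ne'
  set b : Basis (Fin f) (ZMod p) k := Module.finBasis (ZMod p) k with hb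
  have hcard : Fintype.card k = p ^ f := by
    have h2 := Module.card_eq_pow_finrank (K := ZMod p) (V := k)
    rwa [ZMod.card] at h2
  -- the embedding
  have := finite_FF' (l := p) hf0
  have : Fintype (FF' p f) := Fintype.ofFinite _
  have hcard' : Fintype.card (FF' p f) = p ^ f := by
    rw [← Nat.card_eq_fintype_card]
    exact card_FF' hf0
  let ι₀ : k ≃+* FF' p f := FiniteField.ringEquivOfCardEq (hcard.trans hcard'.symm)
  let ι : k →+* KK p := (FF' p f).subtype.comp ι₀.toRingHom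
  have hιf : ∀ x, ι x ^ p ^ f = ι x := fun x => mem_FF'.mp (ι₀ x).2
  -- the functionals
  have key : ∀ γ : Gal(PadicAlgCl p/ℚ_[p]) → k, NC p η D.τ D.σ₁ γ →
      ∃ X : (k →ₗ[ZMod p] ZMod p) →ₗ[ZMod p] KK p, ∀ Λ, XR D.hz.pow_eq_one D.φ γ Λ (X Λ) := by
    intro γ hγ
    choose X hX using fun Λ => hγ.exists_XR hη D.hτ D.hτY D.hϖ D.hτϖ D.hz D.hφ Λ
    have hadd : ∀ Λ Λ', X (Λ + Λ') = X Λ + X Λ' := fun Λ Λ' =>
      XR.unique _ D.hφ (hX (Λ + Λ')) ((hX Λ).add₂ (hX Λ'))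
    exact ⟨AddMonoidHom.toZModLinearMap p (AddMonoidHom.mk' X hadd), hX⟩
  set c := η D.φ with hc
  let E : ℕ → k →ₗ[ZMod p] KK p := fun j => AddMonoidHom.toZModLinearMap p
    (AddMonoidHom.mk' (fun x => ι x ^ p ^ j) fun x y => by rw [map_add, add_pow_char_pow])
  have hE : ∀ j x, E j x = ι x ^ p ^ j := fun j x => rfl
  let S : ((k →ₗ[ZMod p] ZMod p) →ₗ[ZMod p] KK p) → ℕ → KK p :=
    fun X j => ∑ i, E j (b i) * X (b.coord i)
  have hSmul : ∀ (X) (a : k) (j), ∑ i, E j (b i) * X (b.coord i ∘ₗ LinearMap.mulLeft (ZMod p) a) =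
      ι a ^ p ^ j * S X j := by
    intro X a j
    rw [pair_comm b (E j) X a, Finset.mul_sum]
    refine Finset.sum_congr rfl fun i _ => ?_
    rw [hE, hE, map_mul, mul_pow, mul_assoc]
  have hrec : ∀ γ, NC p η D.τ D.σ₁ γ → ∀ X : (k →ₗ[ZMod p] ZMod p) →ₗ[ZMod p] KK p,
      (∀ Λ, XR D.hz.pow_eq_one D.φ γ Λ (X Λ)) → ∀ j, S X (j + 1) = (ι c ^ p ^ j * S X j) ^ p := by
    intro γ hγ X hX j
    have h1 : ∀ Λ, X Λ = X (Λ ∘ₗ LinearMap.mulLeft (ZMod p) c) ^ p := fun Λ =>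
      XR.unique _ D.hφ (hX Λ) (hγ.XR_frob hη D.hφ (hX (Λ ∘ₗ LinearMap.mulLeft (ZMod p) c)))
    rw [← hSmul, sum_pow_char]
    refine Finset.sum_congr rfl fun i _ => ?_
    rw [mul_pow, ← h1, hE, hE, ← pow_mul, ← pow_succ]
  -- the constants
  obtain ⟨C, hC0, hC1⟩ : ∃ C : ℕ → KK p, C 0 = 1 ∧ ∀ j, C (j + 1) = (ι c ^ p ^ j * C j) ^ p :=
    ⟨fun j => Nat.rec 1 (fun j x => (ι c ^ p ^ j * x) ^ p) j, rfl, fun j => rfl⟩
  have hclosed : ∀ γ, NC p η D.τ D.σ₁ γ → ∀ X : (k →ₗ[ZMod p] ZMod p) →ₗ[ZMod p] KK p,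
      (∀ Λ, XR D.hz.pow_eq_one D.φ γ Λ (X Λ)) → ∀ j, S X j = C j * S X 0 ^ p ^ j := by
    intro γ hγ X hX j
    induction j with
    | zero => rw [hC0, pow_zero, pow_one, one_mul]
    | succ j ih =>
      rw [hrec γ hγ X hX j, ih, hC1, pow_succ p j, pow_mul, ← mul_pow, mul_assoc]
  have hloop : ∀ X, S X f = S X 0 := by
    intro X
    refine Finset.sum_congr rfl fun i _ => ?_
    rw [hE, hE, hιf, pow_zero, pow_one]
  -- vanishing
  have hvan : ∀ γ, NC p η D.τ D.σ₁ γ → ∀ X : (k →ₗ[ZMod p] ZMod p) →ₗ[ZMod p] KK p,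
      (∀ Λ, XR D.hz.pow_eq_one D.φ γ Λ (X Λ)) → S X 0 = 0 → ∀ g, γ g = 0 := by
    intro γ hγ X hX h0
    have h1 : (fun i => X (b.coord i)) = 0 := by
      refine moore (p := p) ι b _ fun j => ?_
      have h2 := hclosed γ hγ X hX j
      rw [h0, zero_pow (pow_ne_zero _ hp.out.ne_zero), mul_zero] at h2
      exact h2
    have h2 : X = 0 := by
      refine LinearMap.ext fun Λ => ?_
      have h3 : Λ = ∑ i, Λ (b i) • b.coord i := by
        refine b.ext fun m => ?_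
        rw [LinearMap.sum_apply, Finset.sum_eq_single m]
        · rw [LinearMap.smul_apply, Basis.coord_apply b m (b m), Basis.repr_self,
            Finsupp.single_eq_same, smul_eq_mul, mul_one]
        · intro l _ hl
          rw [LinearMap.smul_apply, Basis.coord_apply b l (b m), Basis.repr_self,
            Finsupp.single_eq_of_ne hl, smul_zero]
        · intro h
          exact absurd (Finset.mem_univ m) h
      rw [h3, map_sum, LinearMap.zero_apply]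
      refine Finset.sum_eq_zero fun i _ => ?_
      rw [map_smul, congrFun h1 i, Pi.zero_apply, smul_zero]
    exact hγ.eq_zero hp2 hη D.hz (φ := D.φ) D.hσ₁ D.hσ₁z fun Λ => by
      have h3 := hX Λ
      rwa [h2, LinearMap.zero_apply] at h3
  obtain ⟨X, hX⟩ := key β hβ
  obtain ⟨X₀, hX₀⟩ := key β₀ hβ₀
  have hS₀ : S X₀ 0 ≠ 0 := by
    intro h
    obtain ⟨g, hg⟩ := hne
    exact hg (hvan β₀ hβ₀ X₀ hX₀ h g)
  set r := S X 0 / S X₀ 0 with hr
  have hrS : S X 0 = r * S X₀ 0 := by rw [hr, div_mul_cancel₀ _ hS₀]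
  have hrq : r ^ p ^ f = r := by
    have h1 := hclosed β hβ X hX f
    have h2 := hclosed β₀ hβ₀ X₀ hX₀ f
    rw [hloop] at h1 h2
    rw [hrS, mul_pow] at h1
    have h3 : r ^ p ^ f * S X₀ 0 = r * S X₀ 0 := by
      conv_lhs => rw [h2]
      rw [h1]
      ring
    exact mul_right_cancel₀ hS₀ h3
  obtain ⟨a, ha⟩ : ∃ a, ι a = r := by
    refine ⟨ι₀.symm ⟨r, mem_FF'.mpr hrq⟩, ?_⟩
    change ((ι₀ (ι₀.symm ⟨r, mem_FF'.mpr hrq⟩) : FF' p f) : KK p) = r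
    rw [RingEquiv.apply_symm_apply]
  refine ⟨a, fun g => ?_⟩
  have hγ := hβ.add (hβ₀.smul (-a))
  obtain ⟨Y, hY⟩ := key _ hγ
  have hYX : ∀ Λ, Y Λ = X Λ + X₀ (Λ ∘ₗ LinearMap.mulLeft (ZMod p) (-a)) := by
    intro Λ
    refine XR.unique _ D.hφ (hY Λ) ((hX Λ).add (β' := fun g => (-a) * β₀ g) (fun g => ?_)
      (hX₀ (Λ ∘ₗ LinearMap.mulLeft (ZMod p) (-a))))
    rw [map_add]
  have hSY : S Y 0 = 0 := by
    have h1 : S Y 0 = S X 0 + ι (-a) ^ p ^ 0 * S X₀ 0 := by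
      rw [← hSmul, ← Finset.sum_add_distrib]
      refine Finset.sum_congr rfl fun i _ => ?_
      rw [hYX, mul_add]
    rw [h1, pow_zero, pow_one, map_neg, ha, hrS]
    ring
  have h1 := hvan _ hγ Y hY hSY g
  linear_combination h1

/-- evaluation at a suitable element is injective on normalised cocycles -/
theorem exists_eval (hp2 : p ≠ 2) (D : Dat p) {k : Type*} [Field k] [Finite k] [CharP k p]
    {η : Gal(PadicAlgCl p/ℚ_[p]) →* k} (hη : ∀ g ∈ IL p, η g = 1) :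
    ∃ σ₂ : Gal(PadicAlgCl p/ℚ_[p]), ∀ β : Gal(PadicAlgCl p/ℚ_[p]) → k,
      NC p η D.τ D.σ₁ β → β σ₂ = 0 → ∀ g, β g = 0 := by
  by_cases hex : ∃ β₀ : Gal(PadicAlgCl p/ℚ_[p]) → k, NC p η D.τ D.σ₁ β₀ ∧ ∃ g, β₀ g ≠ 0
  · obtain ⟨β₀, hβ₀, σ₂, hσ₂⟩ := hex
    refine ⟨σ₂, fun β hβ h0 g => ?_⟩
    obtain ⟨a, ha⟩ := dim_one hp2 D hη hβ hβ₀ ⟨σ₂, hσ₂⟩
    have h1 := ha σ₂
    rw [h0] at h1
    rw [ha g, (mul_eq_zero.mp h1.symm).resolve_right hσ₂, zero_mul]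
  · push Not at hex
    exact ⟨1, fun β hβ _ => hex β hβ⟩

end Fermat.Agent.OrdP
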