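import Fermat.Agent.OrdP.Glob

/-!
# The parameters of the framed local lift at `p`, ordinary case
-/

set_option autoImplicit false
set_option linter.unusedSectionVars false
set_option linter.style.haveILetI false

namespace Fermat.Agent.OrdP

open Fermat.Agent.Coh Fermat.Agent.GalD Fermat.Agent.LocalCFT Module IntermediateField IsLocalRing
open Fermat.Agent.RT Matrix Fermat.Agent.GCFT MvPowerSeries

/-- The field of algebraic numbers. -/
local notation "Qb" => AlgebraicClosure ℚ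
/-- The absolute Galois group. -/
local notation "GQ" => (AlgebraicClosure ℚ ≃ₐ[ℚ] AlgebraicClosure ℚ)

/-- the derivation attached to a homomorphism to the dual numbers -/
theorem derOf_mem {O A k : Type*} [CommRing O] [CommRing A] [Field k] {φ : O →+* A} {π : A →+* k}
    (ψ : A →+* DualNumber k) (h1 : ∀ a, (ψ a).fst = π a)
    (h2 : ∀ o, ψ (φ o) = TrivSqZeroExt.inl (π (φ o))) :
    (fun a => (ψ a).snd) ∈ DerSp φ π := by
  rw [mem_DerSp]
  refine ⟨fun a b => ?_, fun a b => ?_, fun o => ?_⟩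
  · rw [map_add, TrivSqZeroExt.snd_add]
  · rw [map_mul, TrivSqZeroExt.snd_mul, h1, h1]
    simp [mul_comm]
  · rw [h2, TrivSqZeroExt.snd_inl]

/-- an ordinary global representation gives an ordinary local one -/
theorem OrdRep.of_global {l : Nat.Primes} {T : Type*} [CommRing T] [IsLocalRing T]
    {ρ : (AlgebraicClosure ℚ ≃ₐ[ℚ] AlgebraicClosure ℚ) →* GL (Fin 2) T}
    (hcont : ∀ n, ∃ U : Subgroup (AlgebraicClosure ℚ ≃ₐ[ℚ] AlgebraicClosure ℚ),
      IsOpen (U : Set (AlgebraicClosure ℚ ≃ₐ[ℚ] AlgebraicClosure ℚ)) ∧ ∀ u ∈ U, ∀ i j,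
        (ρ u).val i j - (1 : Matrix (Fin 2) (Fin 2) T) i j ∈ maximalIdeal T ^ n)
    (hdet : ∀ (n : ℕ) (σ : AlgebraicClosure ℚ ≃ₐ[ℚ] AlgebraicClosure ℚ) (a : ℕ),
      (∀ μ : AlgebraicClosure ℚ, μ ^ (l : ℕ) ^ n = 1 → σ μ = μ ^ a) →
        (ρ σ).val.det - (a : T) ∈ Ideal.span {(((l : ℕ) ^ n : ℕ) : T)})
    {v₀ : Fin 2 → T}
    (hline : ∀ δ : Gl l, ∃ a : T, (ρ (rl l δ)).val *ᵥ v₀ = a • v₀)
    (hin : ∀ δ ∈ IL (l : ℕ), ∃ f : Fin 2 → T, (ρ (rl l δ)).val = 1 + vecMulVec v₀ f) :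
    OrdRep (l : ℕ) (maximalIdeal T) (ρ.comp (rl l)) v₀ where
  cont n := by
    obtain ⟨U, hU, h1⟩ := hcont n
    obtain ⟨W, hW, h2⟩ := PT.rl_cont (l := l) hU
    exact ⟨W, hW, fun w hw i j => h1 _ (h2 hw) i j⟩
  det n σ e he := by
    refine hdet n (rl l σ) e fun μ hμ => ?_
    apply (il l).toRingHom.injective
    change il l (rl l σ μ) = il l (μ ^ e)
    rw [il_rl, map_pow]
    exact he _ (by rw [← map_pow, hμ, map_one])
  line := hline
  inert := hin

/-- **Interface (I2), ordinary case, framed form.** -/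
theorem framed_ord_params {l : Nat.Primes} (hl2 : (l : ℕ) ≠ 2)
    {O T k : Type*} [CommRing O] [CommRing T] [IsLocalRing T] [IsNoetherianRing T] [Field k]
    [Finite k] {φ : O →+* T} {π : T →+* k} (hπ : RingHom.ker π = maximalIdeal T)
    (hsurj : ∀ x : k, ∃ o : O, π (φ o) = x) (hpT : ((l : ℕ) : T) ∈ maximalIdeal T)
    {ρ : (AlgebraicClosure ℚ ≃ₐ[ℚ] AlgebraicClosure ℚ) →* GL (Fin 2) T} {v₀ : Fin 2 → T}
    (H : OrdRep (l : ℕ) (maximalIdeal T) (ρ.comp (rl l)) v₀)
    (hv₀ : ∃ i, v₀ i ∉ maximalIdeal T) {V : Type*} [Fintype V] (v : V) :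
    ∃ x : Fin 5 → MvPowerSeries (V × Fin 3) T,
      (∀ i, x i ∈ maximalIdeal (MvPowerSeries (V × Fin 3) T)) ∧ x 1 * x 4 = 0 ∧
      ((∀ g : Gl l, (∀ y : KK (l : ℕ), gbar g y = y ^ (l : ℕ)) → ∀ a : T,
        (ρ (rl l g)).val *ᵥ v₀ = a • v₀ → π ((ρ (rl l g)).val.det) ^ 2 ≠ π a ^ 2) → x 4 = 0) ∧
      ∀ ψ : MvPowerSeries (V × Fin 3) T →+* DualNumber k,
        (∀ a, (ψ a).fst = π (constantCoeff a)) →
        (∀ o, ψ (C (φ o)) = TrivSqZeroExt.inl (π (φ o))) →
        (∀ i, ψ (x i) = 0) → ∀ δ : Gl l,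
        ((frm T v).val * (ρ (rl l δ)).val.map C * ((frm T v)⁻¹).val).map ψ =
          (resRep π ρ (rl l δ)).val.map TrivSqZeroExt.inl := by
  set A := MvPowerSeries (V × Fin 3) T with hA
  have hπA : RingHom.ker (frπ π V) = maximalIdeal A := by
    ext f
    rw [mem_maximalIdeal_iff, ← hπ]
    exact Iff.rfl
  have hC : (maximalIdeal T).map (C : T →+* A) ≤ maximalIdeal A := by
    rw [Ideal.map_le_iff_le_comap]
    intro t ht
    rw [Ideal.mem_comap, mem_maximalIdeal_iff]
    simpa using ht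
  have hH : ∀ x : A, (∀ n, x ∈ maximalIdeal A ^ n) → x = 0 := by
    intro x hx
    have h1 : x ∈ ⨅ n : ℕ, maximalIdeal A ^ n := by
      rw [Ideal.mem_iInf]
      exact hx
    rwa [Ideal.iInf_pow_eq_bot_of_isLocalRing _ (maximalIdeal.isMaximal A).ne_top,
      Ideal.mem_bot] at h1
  let r' : Gl l →* GL (Fin 2) A := (MulAut.conj (frm T v)).toMonoidHom.comp
    ((GeneralLinearGroup.map (n := Fin 2) (C : T →+* A)).comp (ρ.comp (rl l)))
  have hr' : ∀ δ, (r' δ).val = (frm T v).val * ((ρ.comp (rl l)) δ).val.map (C : T →+* A) *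
      ((frm T v)⁻¹).val := fun δ => rfl
  have HA := H.change (C : T →+* A) hC (frm T v) r' hr'
  obtain ⟨x, hx, hx14, hx4, hD⟩ := exists_ord_params (φ := frφ φ V) (π := frπ π V) hl2 hπA
    (fun y => by
      obtain ⟨o, ho⟩ := hsurj y
      exact ⟨o, by simpa using ho⟩) hH (by
      have := hC (Ideal.mem_map_of_mem (C : T →+* A) hpT)
      rwa [map_natCast] at this) HA (exists_not_mem_change hv₀ _ _)
  refine ⟨x, hx, hx14, fun h => hx4 fun g hg a' ha' => ?_, fun ψ h1 h2 h3 δ => ?_⟩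
  · obtain ⟨a, ha⟩ := H.line g
    have h1 := h g hg a ha
    -- the eigenvalues agree
    have hgg : ((frm T v)⁻¹).val * (frm T v).val = 1 := by
      rw [← Units.val_mul, inv_mul_cancel, Units.val_one]
    have hgg' : (frm T v).val * ((frm T v)⁻¹).val = 1 := by
      rw [← Units.val_mul, mul_inv_cancel, Units.val_one]
    have h4 : (r' g).val *ᵥ ((frm T v).val *ᵥ ((C : T →+* A) ∘ v₀)) =
        (C a : A) • ((frm T v).val *ᵥ ((C : T →+* A) ∘ v₀)) := by
      rw [hr', mulVec_mulVec, mul_assoc, mul_assoc, hgg, mul_one, ← mulVec_mulVec, ← mulVec_smul]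
      congr 1
      funext i
      have h5 := congrArg (C : T →+* A) (congrFun ha i)
      rw [Pi.smul_apply, smul_eq_mul, map_mul] at h5
      rw [Pi.smul_apply, smul_eq_mul, Function.comp_apply, ← h5, RingHom.map_mulVec]
    obtain ⟨i, hi⟩ := exists_not_mem_change hv₀ (C : T →+* A) (frm T v)
    have hi' : IsUnit (((frm T v).val *ᵥ ((C : T →+* A) ∘ v₀)) i) := by
      by_contra h
      exact hi ((mem_maximalIdeal _).mpr h)
    have h5 := congrFun (ha'.symm.trans h4) i
    rw [Pi.smul_apply, Pi.smul_apply, smul_eq_mul, smul_eq_mul] at h5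
    have h6 : a' = C a := hi'.mul_right_cancel h5
    have h7 : (r' g).val.det = C ((ρ (rl l g)).val.det) := by
      rw [hr', det_mul, det_mul, mul_comm (frm T v).val.det, mul_assoc, ← det_mul, hgg', det_one,
        mul_one, RingHom.map_det]
      rfl
    rw [h6, h7]
    simpa using h1
  · have hDer : (fun a => (ψ a).snd) ∈ DerSp (frφ φ V) (frπ π V) :=
      derOf_mem ψ (fun a => h1 a) (fun o => by
        rw [RingHom.comp_apply, h2]
        simp)
    have h4 := hD _ hDer (fun i => by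
      change (ψ (x i)).snd = 0
      rw [h3, TrivSqZeroExt.snd_zero]) δ
    change (r' δ).val.map ψ = _
    have hfst : (r' δ).val.map (frπ π V) = (resRep π ρ (rl l δ)).val := by
      have h5 : ((frm T v)⁻¹).val.map (frπ π V) = 1 := by
        have h6 : ((frm T v).val * ((frm T v)⁻¹).val).map (frπ π V) = 1 := by
          rw [← Units.val_mul, mul_inv_cancel, Units.val_one]
          exact Matrix.map_one _ (map_zero _) (map_one _)
        rw [Matrix.map_mul, frm_coe, frM_map, one_mul] at h6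
        exact h6
      rw [hr', Matrix.map_mul, Matrix.map_mul, h5, frm_coe, frM_map, one_mul, mul_one]
      ext i j
      exact congrArg π (constantCoeff_C (σ := V × Fin 3) ((ρ (rl l δ)).val i j))
    ext i j
    · have h5 := congrFun (congrFun hfst i) j
      rw [Matrix.map_apply, h1, Matrix.map_apply, TrivSqZeroExt.fst_inl, ← h5]
      rfl
    · have h5 := congrFun (congrFun h4 i) j
      rw [Matrix.map_apply, Matrix.map_apply, TrivSqZeroExt.snd_inl]
      exact h5

end Fermat.Agent.OrdP
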