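import Fermat.Agent.OrdP.Main
import Fermat.Agent.RT.TWPlaces
import Fermat.Agent.PT.Conc
import Fermat.Prelude.Def_GaloisRep_LocalConditions

/-!
# Ordinary global representations: the parameters of the framed local lift at `p`
-/

set_option autoImplicit false
set_option linter.unusedSectionVars false
set_option linter.style.haveILetI false

namespace Fermat.Agent.OrdP

open Fermat.Agent.Coh Fermat.Agent.GalD Fermat.Agent.LocalCFT Module IntermediateField IsLocalRing
open Fermat.Agent.RT Matrix Fermat.Agent.GCFT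

/-- The field of algebraic numbers. -/
local notation "Qb" => AlgebraicClosure ℚ
/-- The absolute Galois group. -/
local notation "GQ" => (AlgebraicClosure ℚ ≃ₐ[ℚ] AlgebraicClosure ℚ)

/-- criterion for membership in the inertia group -/
theorem mem_inertiaSubgroupIn_of (V : ValuationSubring (AlgebraicClosure ℚ))
    {σ : AlgebraicClosure ℚ ≃ₐ[ℚ] AlgebraicClosure ℚ} (hD : σ ∈ V.decompositionSubgroup ℚ)
    (h : ∀ x ∈ V, σ x - x ∈ V.nonunits) : σ ∈ V.inertiaSubgroupIn ℚ := by
  rw [ValuationSubring.inertiaSubgroupIn, Subgroup.mem_map]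
  refine ⟨⟨σ, hD⟩, ?_, rfl⟩
  rw [ValuationSubring.inertiaSubgroup, MonoidHom.mem_ker]
  ext y
  obtain ⟨x, rfl⟩ := IsLocalRing.residue_surjective y
  change IsLocalRing.residue V ((⟨σ, hD⟩ : V.decompositionSubgroup ℚ) • x) = _
  change _ = IsLocalRing.residue V x
  rw [← sub_eq_zero, ← map_sub, IsLocalRing.residue_eq_zero_iff,
    ← ValuationSubring.coe_mem_nonunits_iff]
  exact h x x.2

/-- local inertia maps to global inertia -/
theorem rl_mem_inertia {l : Nat.Primes} {δ : Gl l} (hδ : δ ∈ IL (l : ℕ)) :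
    rl l δ ∈ (padicPlace (l : ℕ)).inertiaSubgroupIn ℚ := by
  refine mem_inertiaSubgroupIn_of _ (localGaloisToGlobal_mem_decompositionSubgroup _ δ)
    fun x hx => ?_
  rw [mem_nonunits_padicPlace, map_sub, il_rl]
  refine mem_IL_iff.mp hδ _ ?_
  have h1 : ‖padicEmbedding (l : ℕ) x‖₊ ≤ 1 := (mem_padicPlace_iff (l : ℕ)).mp hx
  exact_mod_cast h1

/-- the padic place lies over `l` -/
theorem padicPlace_liesOver (l : Nat.Primes) : (padicPlace (l : ℕ)).LiesOverPrime (l : ℕ) :=
  nonunits_padicPlace l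

section Line

variable {T : Type} [CommRing T] [IsLocalRing T]

/-- The ordinary line in matrix form. -/
theorem exists_line {l : Nat.Primes} (ρ' : GaloisRepAdic T) (h : ρ'.IsOrdinaryAt (l : ℕ))
    (b₀ : Basis (Fin 2) T ρ'.V) :
    ∃ v₀ : Fin 2 → T, (∃ i, v₀ i ∉ maximalIdeal T) ∧
      (∀ δ : Gl l, ∃ a : T, LinearMap.toMatrix b₀ b₀ (ρ'.ρ (rl l δ)) *ᵥ v₀ = a • v₀) ∧
      ∀ δ ∈ IL (l : ℕ), ∃ f : Fin 2 → T,
        LinearMap.toMatrix b₀ b₀ (ρ'.ρ (rl l δ)) = 1 + vecMulVec v₀ f := by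
  obtain ⟨L, ⟨b, rfl⟩, h1, h2⟩ := h (padicPlace (l : ℕ)) (padicPlace_liesOver l)
  refine ⟨fun i => b₀.repr (b 0) i, ?_, fun δ => ?_, fun δ hδ => ?_⟩
  · by_contra hcon
    push Not at hcon
    have h3 : b.repr (b 0) 0 ∈ maximalIdeal T := by
      have e : b.repr (b 0) 0 = b.repr (∑ i, b₀.repr (b 0) i • b₀ i) 0 := by rw [b₀.sum_repr]
      rw [e, map_sum, Finsupp.finsetSum_apply]
      refine Ideal.sum_mem _ fun i _ => ?_
      rw [map_smul, Finsupp.smul_apply, smul_eq_mul]
      exact Ideal.mul_mem_right _ _ (hcon i)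
    rw [b.repr_self, Finsupp.single_eq_same] at h3
    exact (mem_maximalIdeal _).mp h3 isUnit_one
  · have h3 := h1 _ (localGaloisToGlobal_mem_decompositionSubgroup _ δ) (b 0)
      (Submodule.mem_span_singleton_self _)
    obtain ⟨a, ha⟩ := Submodule.mem_span_singleton.mp h3
    refine ⟨a, ?_⟩
    have h4 := LinearMap.toMatrix_mulVec_repr b₀ b₀ (ρ'.ρ (rl l δ)) (b 0)
    funext i
    have h5 := congrFun h4 i
    rw [← ha, map_smul] at h5
    exact h5
  · have h3 := h2 _ (rl_mem_inertia hδ)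
    choose f hf using fun v => Submodule.mem_span_singleton.mp (h3 v)
    refine ⟨fun j => f (b₀ j), ?_⟩
    ext i j
    rw [LinearMap.toMatrix_apply, Matrix.add_apply, vecMulVec_apply]
    have h4 : ρ'.ρ (rl l δ) (b₀ j) = b₀ j + f (b₀ j) • b 0 := by
      rw [hf]
      abel
    rw [h4, map_add, map_smul, Finsupp.add_apply, Finsupp.smul_apply, smul_eq_mul, b₀.repr_self,
      Finsupp.single_apply, Matrix.one_apply, mul_comm]
    congr 1
    simp only [eq_comm]

end Line

section Change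

variable {p : ℕ} [hp : Fact p.Prime]

/-- change of ring and of basis for ordinary representations -/
theorem OrdRep.change {T A : Type*} [CommRing T] [CommRing A] {𝔪 : Ideal T} {𝔫 : Ideal A}
    {r : Gal(PadicAlgCl p/ℚ_[p]) →* GL (Fin 2) T} {v : Fin 2 → T} (H : OrdRep p 𝔪 r v)
    (f : T →+* A) (hf : 𝔪.map f ≤ 𝔫) (g : GL (Fin 2) A)
    (r' : Gal(PadicAlgCl p/ℚ_[p]) →* GL (Fin 2) A)
    (hr' : ∀ δ, (r' δ).val = g.val * (r δ).val.map f * (g⁻¹).val) :
    OrdRep p 𝔫 r' (g.val *ᵥ (f ∘ v)) := by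
  have hg : (g⁻¹).val * g.val = 1 := by rw [← Units.val_mul, inv_mul_cancel, Units.val_one]
  have hg' : g.val * (g⁻¹).val = 1 := by rw [← Units.val_mul, mul_inv_cancel, Units.val_one]
  refine ⟨fun n => ?_, fun n σ e he => ?_, fun σ => ?_, fun σ hσ => ?_⟩
  · obtain ⟨W, hW, h1⟩ := H.cont n
    refine ⟨W, hW, fun w hw i j => ?_⟩
    have h2 : (r' w).val - 1 = g.val * (((r w).val - 1).map f) * (g⁻¹).val := by
      rw [hr', Matrix.map_sub f f.map_sub, Matrix.map_one f f.map_zero f.map_one, mul_sub, sub_mul,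
        mul_one, hg']
    rw [← Matrix.sub_apply, h2, Matrix.mul_apply]
    refine Ideal.sum_mem _ fun l _ => Ideal.mul_mem_right _ _ ?_
    rw [Matrix.mul_apply]
    refine Ideal.sum_mem _ fun m _ => Ideal.mul_mem_left _ _ ?_
    rw [Matrix.map_apply]
    have h3 : f (((r w).val - 1) m l) ∈ (𝔪 ^ n).map f :=
      Ideal.mem_map_of_mem f (by rw [Matrix.sub_apply]; exact h1 w hw m l)
    rw [Ideal.map_pow] at h3
    exact Ideal.pow_right_mono hf n h3
  · have h1 : (r' σ).val.det = f (r σ).val.det := by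
      rw [hr', det_mul, det_mul, mul_comm g.val.det, mul_assoc, ← det_mul, hg', det_one,
        mul_one, RingHom.map_det]
      rfl
    have h2 := H.det n σ e he
    rw [Ideal.mem_span_singleton] at h2 ⊢
    obtain ⟨c, hc⟩ := h2
    refine ⟨f c, ?_⟩
    have h3 := congrArg f hc
    rw [map_sub, map_mul, map_natCast, map_natCast] at h3
    rw [h1, h3]
  · obtain ⟨a, ha⟩ := H.line σ
    refine ⟨f a, ?_⟩
    rw [hr', mulVec_mulVec, mul_assoc, mul_assoc, hg, mul_one, ← mulVec_mulVec, ← mulVec_smul]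
    congr 1
    funext i
    have h1 := congrArg f (congrFun ha i)
    rw [Pi.smul_apply, smul_eq_mul, map_mul] at h1
    rw [Pi.smul_apply, smul_eq_mul, Function.comp_apply, ← h1, RingHom.map_mulVec]
  · obtain ⟨u, hu⟩ := H.inert σ hσ
    refine ⟨(f ∘ u) ᵥ* (g⁻¹).val, ?_⟩
    have h1 : (r σ).val.map f = 1 + vecMulVec (f ∘ v) (f ∘ u) := by
      rw [hu]
      ext i j
      rw [Matrix.map_apply, Matrix.add_apply, Matrix.add_apply, vecMulVec_apply, vecMulVec_apply,
        map_add, map_mul, Matrix.one_apply, Matrix.one_apply]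
      split
      · rw [map_one]; rfl
      · rw [map_zero]; rfl
    rw [hr', h1, mul_add, add_mul, mul_one, hg', mul_vecMulVec, vecMulVec_mul]

theorem exists_not_mem_change {T A : Type*} [CommRing T] [CommRing A] [IsLocalRing T]
    [IsLocalRing A] {v : Fin 2 → T} (hv : ∃ i, v i ∉ maximalIdeal T) (f : T →+* A)
    (g : GL (Fin 2) A) : ∃ i, (g.val *ᵥ (f ∘ v)) i ∉ maximalIdeal A := by
  obtain ⟨i, hi⟩ := hv
  have hi' : IsUnit (v i) := by
    by_contra h
    exact hi ((mem_maximalIdeal _).mpr h)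
  by_contra hcon
  push Not at hcon
  have hg : (g⁻¹).val * g.val = 1 := by rw [← Units.val_mul, inv_mul_cancel, Units.val_one]
  have h1 : (f ∘ v) = (g⁻¹).val *ᵥ (g.val *ᵥ (f ∘ v)) := by
    rw [mulVec_mulVec, hg, one_mulVec]
  have h2 : f (v i) ∈ maximalIdeal A := by
    have h3 := congrFun h1 i
    rw [Function.comp_apply] at h3
    rw [h3, mulVec, dotProduct]
    exact Ideal.sum_mem _ fun j _ => Ideal.mul_mem_left _ _ (hcon j)
  exact (mem_maximalIdeal _).mp h2 (hi'.map f)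

end Change

end Fermat.Agent.OrdP
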