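import Fermat.Agent.LocalCFT.Unram

/-!
# The inertia subgroup of the local Galois group
-/

set_option autoImplicit false
set_option linter.unusedSectionVars false
set_option linter.style.haveILetI false

namespace Fermat.Agent.OrdP

open Fermat.Agent.Coh Fermat.Agent.GalD Fermat.Agent.LocalCFT Module IntermediateField

variable {l : ℕ} [hl : Fact l.Prime]

variable (l) in
/-- the inertia subgroup -/
def IL : Subgroup Gal(PadicAlgCl l/ℚ_[l]) where
  carrier := {g | ∀ y : KK l, gbar g y = y}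
  one_mem' y := by
    obtain ⟨x, rfl⟩ := rd_surjective y
    rfl
  mul_mem' {a b} ha hb y := by rw [gbar_mul, hb, ha]
  inv_mem' {a} ha y := by
    have h1 := gbar_mul a⁻¹ a y
    rw [inv_mul_cancel, ha y] at h1
    rw [← h1]
    obtain ⟨x, rfl⟩ := rd_surjective y
    rfl

theorem mem_IL {g : Gal(PadicAlgCl l/ℚ_[l])} : g ∈ IL l ↔ ∀ y : KK l, gbar g y = y := Iff.rfl

theorem mem_IL_iff {g : Gal(PadicAlgCl l/ℚ_[l])} :
    g ∈ IL l ↔ ∀ x : PadicAlgCl l, ‖x‖ ≤ 1 → ‖g x - x‖ < 1 := by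
  constructor
  · intro h x hx
    have h1 := h (rd ⟨x, mem_OO.mpr hx⟩)
    rw [gbar_rd, rd_eq_iff] at h1
    exact h1
  · intro h y
    obtain ⟨x, rfl⟩ := rd_surjective y
    rw [gbar_rd, rd_eq_iff]
    exact h x (mem_OO.mp x.2)

instance : (IL l).Normal where
  conj_mem g hg h y := by
    rw [gbar_mul, gbar_mul, hg, ← gbar_mul, mul_inv_cancel]
    obtain ⟨x, rfl⟩ := rd_surjective y
    rfl

/-- every element of the residue field lies in a finite subfield -/
theorem exists_mem_FF' (y : KK l) : ∃ m ≠ 0, y ∈ FF' l m := by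
  obtain ⟨x, rfl⟩ := rd_surjective y
  have hint : IsIntegral ℚ_[l] (x : PadicAlgCl l) := Algebra.IsIntegral.isIntegral _
  have := adjoin.finiteDimensional hint
  have hU := fam_isOpen_of_finite (k := ℚ_[l]) (Ω := PadicAlgCl l) ℚ_[l]⟮(x : PadicAlgCl l)⟯
  have h1 : rd x ∈ kap (ℚ_[l]⟮(x : PadicAlgCl l)⟯).fixingSubgroup := by
    refine ⟨x, mem_fld.mpr fun g hg => ?_, rfl⟩
    exact hg ⟨_, mem_adjoin_simple_self ℚ_[l] _⟩
  rw [kap_eq hU] at h1
  exact ⟨_, (exists_unif_fdeg hU).1.ne', h1⟩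

/-- the subgroup acting trivially on the field with `l ^ m` elements -/
def WL (l : ℕ) [hl : Fact l.Prime] (m : ℕ) : Subgroup Gal(PadicAlgCl l/ℚ_[l]) where
  carrier := {g | ∀ y ∈ FF' l m, gbar g y = y}
  one_mem' y _ := by
    obtain ⟨x, rfl⟩ := rd_surjective y
    rfl
  mul_mem' {a b} ha hb y hy := by rw [gbar_mul, hb y hy, ha y hy]
  inv_mem' {a} ha y hy := by
    have h1 := gbar_mul a⁻¹ a y
    rw [inv_mul_cancel, ha y hy] at h1
    rw [← h1]
    obtain ⟨x, rfl⟩ := rd_surjective y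
    rfl

theorem mem_WL {m : ℕ} {g : Gal(PadicAlgCl l/ℚ_[l])} :
    g ∈ WL l m ↔ ∀ y ∈ FF' l m, gbar g y = y := Iff.rfl

theorem WL_anti {m n : ℕ} (h : m ∣ n) : WL l n ≤ WL l m := fun _ hg y hy => hg y (FF'_le h hy)

theorem IL_le_WL (m : ℕ) : IL l ≤ WL l m := fun _ hg y _ => hg y

theorem isOpen_WL {m : ℕ} (hm : m ≠ 0) : (LF l).IsOpen (WL l m) := by
  obtain ⟨z, hz⟩ := exists_primitive (l := l) hm
  have hint : IsIntegral ℚ_[l] z := Algebra.IsIntegral.isIntegral z
  have := adjoin.finiteDimensional hint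
  refine (fam_isOpen_of_finite (k := ℚ_[l]) (Ω := PadicAlgCl l) ℚ_[l]⟮z⟯).mono fun u hu => ?_
  intro y hy
  by_cases h0 : y = 0
  · rw [h0, map_zero]
  have hz1 : u z = z := hu ⟨z, mem_adjoin_simple_self ℚ_[l] z⟩
  obtain ⟨w, hw, rfl⟩ := exists_teich hm y hy h0
  have : NeZero (l ^ m - 1) := ⟨(pow_sub_one_pos (l := l) hm).ne'⟩
  obtain ⟨i, -, hi⟩ := hz.eq_pow_of_pow_eq_one hw
  rw [gbar_rd]
  congr 1
  apply Subtype.ext
  rw [coe_gOO, ← hi, map_pow, hz1]

theorem topOpen {U : Subgroup Gal(PadicAlgCl l/ℚ_[l])} (hU : (LF l).IsOpen U) :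
    IsOpen (U : Set Gal(PadicAlgCl l/ℚ_[l])) := by
  obtain ⟨_, ⟨K, hK1, hK2, rfl⟩, hle⟩ := hU
  exact Subgroup.isOpen_mono hle (IntermediateField.fixingSubgroup_isOpen K)

/-- an open subgroup containing the inertia group contains some `WL l m` -/
theorem exists_WL_le {U : Subgroup Gal(PadicAlgCl l/ℚ_[l])} (hU : (LF l).IsOpen U)
    (h : IL l ≤ U) : ∃ m ≠ 0, WL l m ≤ U := by
  by_contra hcon
  push Not at hcon
  have hUo := topOpen hU
  let Z : ℕ → Set Gal(PadicAlgCl l/ℚ_[l]) := fun m => (WL l (m + 1) : Set _) \ U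
  have hclosed : ∀ m, IsClosed (Z m) := fun m =>
    (Subgroup.isClosed_of_isOpen _ (topOpen (isOpen_WL (l := l) (Nat.succ_ne_zero m)))).sdiff hUo
  have hne : ∀ m, (Z m).Nonempty := fun m => by
    obtain ⟨g, hg1, hg2⟩ := Set.not_subset.mp (hcon (m + 1) (Nat.succ_ne_zero m))
    exact ⟨g, hg1, hg2⟩
  have hdir : Directed (· ⊇ ·) Z := by
    intro m n
    refine ⟨(m + 1) * (n + 1) - 1, ?_, ?_⟩
    · have h1 : (m + 1) * (n + 1) - 1 + 1 = (m + 1) * (n + 1) := by
        have : 0 < (m + 1) * (n + 1) := by positivity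
        omega
      refine Set.sdiff_subset_sdiff_left ?_
      rw [h1]
      exact WL_anti (Dvd.intro _ rfl)
    · have h1 : (m + 1) * (n + 1) - 1 + 1 = (m + 1) * (n + 1) := by
        have : 0 < (m + 1) * (n + 1) := by positivity
        omega
      refine Set.sdiff_subset_sdiff_left ?_
      rw [h1]
      exact WL_anti (Dvd.intro_left _ rfl)
  obtain ⟨g, hg⟩ := IsCompact.nonempty_iInter_of_directed_nonempty_isCompact_isClosed Z hdir hne
    (fun m => (hclosed m).isCompact) hclosed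
  rw [Set.mem_iInter] at hg
  refine (hg 0).2 (h ?_)
  intro y
  obtain ⟨m, hm, hy⟩ := exists_mem_FF' y
  obtain ⟨n, rfl⟩ := Nat.exists_eq_succ_of_ne_zero hm
  exact (hg n).1 y hy

/-- An open subgroup containing the inertia group: unramified. -/
theorem index_eq_fdeg {U : Subgroup Gal(PadicAlgCl l/ℚ_[l])} (hU : (LF l).IsOpen U)
    (h : IL l ≤ U) : U.index = fdeg U := by
  obtain ⟨m, hm, hmU⟩ := exists_WL_le hU h
  -- the subgroup of exponents
  let E : AddSubgroup ℤ :=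
    { carrier := {k | ∃ u ∈ U, k ≡ (fexp hm u : ℤ) [ZMOD m]}
      zero_mem' := ⟨1, U.one_mem, by
        have h1 := fexp_mul hm (1 : Gal(PadicAlgCl l/ℚ_[l])) 1
        rw [mul_one] at h1
        have h2 : 0 + fexp hm (1 : Gal(PadicAlgCl l/ℚ_[l])) ≡ fexp hm (1 : Gal(PadicAlgCl l/ℚ_[l])) +
          fexp hm (1 : Gal(PadicAlgCl l/ℚ_[l])) [MOD m] := by rwa [zero_add]
        exact_mod_cast (Int.natCast_modEq_iff.mpr (Nat.ModEq.add_right_cancel' _ h2))⟩
      add_mem' := by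
        rintro a b ⟨u, hu, ha⟩ ⟨v, hv, hb⟩
        refine ⟨u * v, U.mul_mem hu hv, (ha.add hb).trans ?_⟩
        exact_mod_cast (Int.natCast_modEq_iff.mpr (fexp_mul hm u v)).symm
      neg_mem' := by
        rintro a ⟨u, hu, ha⟩
        refine ⟨u⁻¹, U.inv_mem hu, ?_⟩
        have h1 := fexp_mul hm (1 : Gal(PadicAlgCl l/ℚ_[l])) 1
        rw [mul_one] at h1
        have h2 : 0 + fexp hm (1 : Gal(PadicAlgCl l/ℚ_[l])) ≡ fexp hm (1 : Gal(PadicAlgCl l/ℚ_[l])) +
          fexp hm (1 : Gal(PadicAlgCl l/ℚ_[l])) [MOD m] := by rwa [zero_add]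
        have h3 := Int.natCast_modEq_iff.mpr (Nat.ModEq.add_right_cancel' _ h2)
        have h4 := Int.natCast_modEq_iff.mpr (fexp_mul hm u⁻¹ u)
        rw [inv_mul_cancel] at h4
        have h5 := h3.trans h4
        push_cast at h5
        have h6 : -a ≡ -(fexp hm u : ℤ) [ZMOD m] := ha.neg
        refine h6.trans ?_
        have h7 : -(fexp hm u : ℤ) + 0 ≡ -(fexp hm u : ℤ) + ((fexp hm u⁻¹ : ℤ) + fexp hm u) [ZMOD m] :=
          Int.ModEq.add_left _ h5
        rw [add_zero] at h7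
        have h8 : -(fexp hm u : ℤ) + ((fexp hm u⁻¹ : ℤ) + fexp hm u) = fexp hm u⁻¹ := by ring
        rwa [h8] at h7 }
  obtain ⟨d', hd'⟩ := Int.subgroup_cyclic E
  rw [← AddSubgroup.zmultiples_eq_closure] at hd'
  have hmE : (m : ℤ) ∈ E := by
    have h0 : (0 : ℤ) ∈ E := E.zero_mem
    obtain ⟨u, hu, h1⟩ := h0
    refine ⟨u, hu, ?_⟩
    have : (m : ℤ) ≡ 0 [ZMOD m] := (Int.modEq_zero_iff_dvd).mpr dvd_rfl
    exact this.trans h1
  set d := d'.natAbs with hd
  have hmem : ∀ k : ℤ, k ∈ E ↔ (d : ℤ) ∣ k := by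
    intro k
    rw [hd', Int.mem_zmultiples_iff, hd, Int.natAbs_dvd]
  have hdm : d ∣ m := by
    have := (hmem m).mp hmE
    exact_mod_cast this
  have hd0 : d ≠ 0 := by
    rintro h0
    rw [h0, zero_dvd_iff] at hdm
    exact hm hdm
  -- the residue field
  have h1 : d ∣ fdeg U := by
    rw [← FF'_le_kap_iff hU hd0]
    intro y hy
    refine mem_kap_of_gbar hd0 hy fun u hu => ?_
    have h2 : (d : ℤ) ∣ fexp hm u := (hmem _).mp ⟨u, hu, Int.ModEq.refl _⟩
    have h3 : d ∣ fexp hd0 u := by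
      have h4 := fexp_congr hd0 hm hdm u
      have h5 : d ∣ fexp hm u := by exact_mod_cast h2
      exact (h4.dvd_iff dvd_rfl).mp h5
    exact (dvd_fexp_iff hd0 u).mp h3 y hy
  -- the index
  have hfi := hU.finiteIndex
  have h2 : U.index ≤ d := by
    have hinj : Function.Injective (fun c : Gal(PadicAlgCl l/ℚ_[l]) ⧸ U =>
        ((fexp hm c.out : ℕ) : ZMod d)) := by
      intro c c' hcc
      have h3 : fexp hm c.out ≡ fexp hm c'.out [MOD d] := (ZMod.natCast_eq_natCast_iff _ _ _).mp hcc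
      rw [← QuotientGroup.out_eq' c, ← QuotientGroup.out_eq' c', QuotientGroup.eq]
      set g := c.out
      set g' := c'.out
      have h4 : ((fexp hm (g⁻¹ * g') : ℕ) : ℤ) ∈ E := by
        rw [hmem]
        have h5 := Int.natCast_modEq_iff.mpr ((fexp_mul hm g (g⁻¹ * g')).of_dvd hdm)
        rw [mul_inv_cancel_left] at h5
        have h6 := Int.natCast_modEq_iff.mpr h3
        push_cast at h5 h6
        have h7 : (fexp hm g : ℤ) + 0 ≡ fexp hm g + fexp hm (g⁻¹ * g') [ZMOD d] := by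
          rw [add_zero]
          exact h6.trans h5
        have h8 := Int.ModEq.add_left_cancel' _ h7
        exact (Int.modEq_zero_iff_dvd).mp h8.symm
      obtain ⟨u, hu, h5⟩ := h4
      have h6 : fexp hm (g⁻¹ * g') ≡ fexp hm u [MOD m] := Int.natCast_modEq_iff.mp h5
      have h7 : u⁻¹ * (g⁻¹ * g') ∈ WL l m := by
        intro y hy
        have h8 : gbar (g⁻¹ * g') y = gbar u y := by
          rw [fexp_spec hm _ hy, fexp_spec hm _ hy]
          exact (frob_congr hm _ _).mpr h6 y hy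
        rw [gbar_mul, h8, ← gbar_mul, inv_mul_cancel]
        obtain ⟨x, rfl⟩ := rd_surjective y
        rfl
      have h8 := U.mul_mem hu (hmU h7)
      rwa [mul_inv_cancel_left] at h8
    have : NeZero d := ⟨hd0⟩
    have h3 := Nat.card_le_card_of_injective _ hinj
    rwa [Nat.card_zmod] at h3
  have h3 : fdeg U ∣ U.index := by
    have h4 := (exists_unif_fdeg hU).2.2 (toFF l_mem_fld l_ne_zero)
    rw [VU_l hU] at h4
    exact_mod_cast h4
  exact le_antisymm (h2.trans (Nat.le_of_dvd (exists_unif_fdeg hU).1 h1))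
    (Nat.le_of_dvd (index_pos hU) h3)

/-- elements fixed by inertia have norm a power of `l` -/
theorem norm_of_fixed {y : PadicAlgCl l} (hy : y ≠ 0) (h : ∀ g ∈ IL l, g y = y) :
    ∃ k : ℤ, ‖y‖ = (l : ℝ) ^ k := by
  have hint : IsIntegral ℚ_[l] y := Algebra.IsIntegral.isIntegral _
  have := adjoin.finiteDimensional hint
  have hU := fam_isOpen_of_finite (k := ℚ_[l]) (Ω := PadicAlgCl l) ℚ_[l]⟮y⟯
  set U := (ℚ_[l]⟮y⟯).fixingSubgroup with hUdef
  have hle : IL l ≤ U := by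
    intro g hg
    rw [hUdef, IntermediateField.mem_fixingSubgroup_iff]
    intro x hx
    have h4 : ∀ x : PadicAlgCl l, x ∈ ℚ_[l]⟮y⟯ → g x = x := by
      intro x hx
      induction hx using IntermediateField.adjoin_induction with
      | mem x hx =>
        rw [Set.mem_singleton_iff] at hx
        rw [hx, h g hg]
      | algebraMap x => exact g.commutes x
      | add x y _ _ hx hy => rw [map_add, hx, hy]
      | inv x _ hx => rw [map_inv₀, hx]
      | mul x y _ _ hx hy => rw [map_mul, hx, hy]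
    exact h4 x hx
  have hyU : y ∈ fld U := mem_fld.mpr fun g hg => hg ⟨_, mem_adjoin_simple_self ℚ_[l] _⟩
  have h1 := index_eq_fdeg hU hle
  obtain ⟨k, hk⟩ := (exists_unif_fdeg hU).2.2 (toFF hyU hy)
  have h2 := VU_spec hU (toFF hyU hy)
  rw [uval_toFF, hk, ← h1] at h2
  refine ⟨-k, ?_⟩
  have h3 : ‖y‖ ^ U.index = ((l : ℝ) ^ (-k)) ^ U.index := by
    rw [h2, ← zpow_natCast, ← zpow_mul]
    congr 1
    ring
  exact (pow_left_inj₀ (norm_nonneg _) (zpow_nonneg l_pos.le _) (index_pos hU).ne').mp h3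

/-- **Existence of a Frobenius element.** -/
theorem exists_frob : ∃ φ : Gal(PadicAlgCl l/ℚ_[l]), ∀ y : KK l, gbar φ y = y ^ l := by
  have hUt : (LF l).IsOpen (⊤ : Subgroup Gal(PadicAlgCl l/ℚ_[l])) := Fam.isOpen_top _
  have hft : fdeg (⊤ : Subgroup Gal(PadicAlgCl l/ℚ_[l])) = 1 := by
    have h1 := index_eq_fdeg hUt le_top
    rw [Subgroup.index_top] at h1
    exact h1.symm
  -- surjectivity at finite level
  have hex : ∀ m : ℕ, m ≠ 0 → ∃ g : Gal(PadicAlgCl l/ℚ_[l]), ∀ y ∈ FF' l m, gbar g y = y ^ l := by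
    intro m hm
    let E : AddSubgroup ℤ :=
      { carrier := {k | ∃ u : Gal(PadicAlgCl l/ℚ_[l]), k ≡ (fexp hm u : ℤ) [ZMOD m]}
        zero_mem' := ⟨1, by
          have h1 := fexp_mul hm (1 : Gal(PadicAlgCl l/ℚ_[l])) 1
          rw [mul_one] at h1
          have h2 : 0 + fexp hm (1 : Gal(PadicAlgCl l/ℚ_[l])) ≡
            fexp hm (1 : Gal(PadicAlgCl l/ℚ_[l])) +
            fexp hm (1 : Gal(PadicAlgCl l/ℚ_[l])) [MOD m] := by rwa [zero_add]
          exact_mod_cast (Int.natCast_modEq_iff.mpr (Nat.ModEq.add_right_cancel' _ h2))⟩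
        add_mem' := by
          rintro a b ⟨u, ha⟩ ⟨v, hb⟩
          refine ⟨u * v, (ha.add hb).trans ?_⟩
          exact_mod_cast (Int.natCast_modEq_iff.mpr (fexp_mul hm u v)).symm
        neg_mem' := by
          rintro a ⟨u, ha⟩
          refine ⟨u⁻¹, ?_⟩
          have h1 := fexp_mul hm (1 : Gal(PadicAlgCl l/ℚ_[l])) 1
          rw [mul_one] at h1
          have h2 : 0 + fexp hm (1 : Gal(PadicAlgCl l/ℚ_[l])) ≡
            fexp hm (1 : Gal(PadicAlgCl l/ℚ_[l])) +
            fexp hm (1 : Gal(PadicAlgCl l/ℚ_[l])) [MOD m] := by rwa [zero_add]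
          have h3 := Int.natCast_modEq_iff.mpr (Nat.ModEq.add_right_cancel' _ h2)
          have h4 := Int.natCast_modEq_iff.mpr (fexp_mul hm u⁻¹ u)
          rw [inv_mul_cancel] at h4
          have h5 := h3.trans h4
          push_cast at h5
          have h6 : -a ≡ -(fexp hm u : ℤ) [ZMOD m] := ha.neg
          refine h6.trans ?_
          have h7 : -(fexp hm u : ℤ) + 0 ≡
              -(fexp hm u : ℤ) + ((fexp hm u⁻¹ : ℤ) + fexp hm u) [ZMOD m] :=
            Int.ModEq.add_left _ h5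
          rw [add_zero] at h7
          have h8 : -(fexp hm u : ℤ) + ((fexp hm u⁻¹ : ℤ) + fexp hm u) = fexp hm u⁻¹ := by ring
          rwa [h8] at h7 }
    obtain ⟨d', hd'⟩ := Int.subgroup_cyclic E
    rw [← AddSubgroup.zmultiples_eq_closure] at hd'
    have hmE : (m : ℤ) ∈ E := by
      obtain ⟨u, h1⟩ := E.zero_mem
      refine ⟨u, ?_⟩
      have : (m : ℤ) ≡ 0 [ZMOD m] := (Int.modEq_zero_iff_dvd).mpr dvd_rfl
      exact this.trans h1
    set d := d'.natAbs with hd
    have hmem : ∀ k : ℤ, k ∈ E ↔ (d : ℤ) ∣ k := by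
      intro k
      rw [hd', Int.mem_zmultiples_iff, hd, Int.natAbs_dvd]
    have hdm : d ∣ m := by
      have := (hmem m).mp hmE
      exact_mod_cast this
    have hd0 : d ≠ 0 := by
      rintro h0
      rw [h0, zero_dvd_iff] at hdm
      exact hm hdm
    have h1 : d ∣ fdeg (⊤ : Subgroup Gal(PadicAlgCl l/ℚ_[l])) := by
      rw [← FF'_le_kap_iff hUt hd0]
      intro y hy
      refine mem_kap_of_gbar hd0 hy fun u hu => ?_
      have h2 : (d : ℤ) ∣ fexp hm u := (hmem _).mp ⟨u, Int.ModEq.refl _⟩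
      have h3 : d ∣ fexp hd0 u := by
        have h4 := fexp_congr hd0 hm hdm u
        have h5 : d ∣ fexp hm u := by exact_mod_cast h2
        exact (h4.dvd_iff dvd_rfl).mp h5
      exact (dvd_fexp_iff hd0 u).mp h3 y hy
    rw [hft] at h1
    have h2 : (1 : ℤ) ∈ E := by
      rw [hmem]
      exact_mod_cast h1
    obtain ⟨g, hg⟩ := h2
    refine ⟨g, fun y hy => ?_⟩
    have h3 : 1 ≡ fexp hm g [MOD m] := Int.natCast_modEq_iff.mp (by exact_mod_cast hg)
    rw [fexp_spec hm g hy, ← (frob_congr hm _ _).mpr h3 y hy, pow_one]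
  let Z : ℕ → Set Gal(PadicAlgCl l/ℚ_[l]) := fun m => {g | ∀ y ∈ FF' l (m + 1), gbar g y = y ^ l}
  have hclosed : ∀ m, IsClosed (Z m) := fun m => by
    obtain ⟨g, hg⟩ := hex (m + 1) (Nat.succ_ne_zero m)
    have h1 : Z m = (fun x => g⁻¹ * x) ⁻¹' (WL l (m + 1) : Set _) := by
      ext x
      change (∀ y ∈ FF' l (m + 1), gbar x y = y ^ l) ↔ ∀ y ∈ FF' l (m + 1), gbar (g⁻¹ * x) y = y
      refine forall₂_congr fun y hy => ?_
      rw [← hg y hy, gbar_mul]
      have h2 : gbar g⁻¹ (gbar g y) = y := by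
        rw [← gbar_mul, inv_mul_cancel]
        obtain ⟨x, rfl⟩ := rd_surjective y
        rfl
      constructor
      · intro h3
        rw [h3, h2]
      · intro h3
        apply (gbar g⁻¹).injective
        rw [h3, h2]
    rw [h1]
    exact (Subgroup.isClosed_of_isOpen _ (topOpen (isOpen_WL (l := l)
      (Nat.succ_ne_zero m)))).preimage (continuous_const_mul _)
  have hne : ∀ m, (Z m).Nonempty := fun m => hex (m + 1) (Nat.succ_ne_zero m)
  have hdir : Directed (· ⊇ ·) Z := by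
    intro m n
    have h1 : (m + 1) * (n + 1) - 1 + 1 = (m + 1) * (n + 1) := by
      have : 0 < (m + 1) * (n + 1) := by positivity
      omega
    refine ⟨(m + 1) * (n + 1) - 1, ?_, ?_⟩
    · intro g hg y hy
      refine hg y ?_
      rw [h1]
      exact FF'_le (Dvd.intro _ rfl) hy
    · intro g hg y hy
      refine hg y ?_
      rw [h1]
      exact FF'_le (Dvd.intro_left _ rfl) hy
  obtain ⟨g, hg⟩ := IsCompact.nonempty_iInter_of_directed_nonempty_isCompact_isClosed Z hdir hne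
    (fun m => (hclosed m).isCompact) hclosed
  rw [Set.mem_iInter] at hg
  refine ⟨g, fun y => ?_⟩
  obtain ⟨m, hm, hy⟩ := exists_mem_FF' y
  obtain ⟨n, rfl⟩ := Nat.exists_eq_succ_of_ne_zero hm
  exact hg n y hy

/-- A homomorphism which is locally constant, trivial on inertia and on a Frobenius element is
trivial. -/
theorem eq_pow_mul_of_frob {φ : Gal(PadicAlgCl l/ℚ_[l])} (hφ : ∀ y : KK l, gbar φ y = y ^ l)
    {U : Subgroup Gal(PadicAlgCl l/ℚ_[l])} (hU : (LF l).IsOpen U) (h : IL l ≤ U)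
    (g : Gal(PadicAlgCl l/ℚ_[l])) : ∃ j : ℕ, ∃ u ∈ U, g = φ ^ j * u := by
  obtain ⟨m, hm, hmU⟩ := exists_WL_le hU h
  refine ⟨fexp hm g, (φ ^ fexp hm g)⁻¹ * g, hmU ?_, by group⟩
  intro y hy
  have hpow : ∀ (j : ℕ) (y : KK l), gbar (φ ^ j) y = y ^ (l ^ j) := by
    intro j
    induction j with
    | zero =>
      intro y
      rw [pow_zero, pow_zero, pow_one]
      obtain ⟨x, rfl⟩ := rd_surjective y
      rfl
    | succ j ih => intro y; rw [pow_succ, gbar_mul, hφ, ih, ← pow_mul, pow_succ, mul_comm l]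
  have h1 : gbar g y = gbar (φ ^ fexp hm g) y := by rw [hpow, fexp_spec hm g hy]
  rw [gbar_mul, h1, ← gbar_mul, inv_mul_cancel]
  obtain ⟨x, rfl⟩ := rd_surjective y
  rfl

end Fermat.Agent.OrdP
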