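import Fermat.Agent.OrdP.Asm
import Fermat.Agent.RT.FramedGen

/-!
# Local parameters of ordinary deformations at `p`: the main theorem
-/

set_option autoImplicit false
set_option linter.unusedSectionVars false
set_option linter.style.haveILetI false

namespace Fermat.Agent.OrdP

open Fermat.Agent.Coh Fermat.Agent.GalD Fermat.Agent.LocalCFT Module IntermediateField IsLocalRing
open Fermat.Agent.RT Matrix

variable {p : ℕ} [hp : Fact p.Prime]

/-- ordinary matrix representations of the local Galois group -/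
structure OrdRep (p : ℕ) [hp : Fact p.Prime] {A : Type*} [CommRing A] (𝔪 : Ideal A)
    (r : Gal(PadicAlgCl p/ℚ_[p]) →* GL (Fin 2) A) (v : Fin 2 → A) : Prop where
  cont : ∀ n, ∃ W ∈ LF p, ∀ w ∈ W, ∀ i j,
    (r w).val i j - (1 : Matrix (Fin 2) (Fin 2) A) i j ∈ 𝔪 ^ n
  det : ∀ (n : ℕ) (σ) (e : ℕ), (∀ ζ : PadicAlgCl p, ζ ^ p ^ n = 1 → σ ζ = ζ ^ e) →
    (r σ).val.det - (e : A) ∈ Ideal.span {((p ^ n : ℕ) : A)}
  line : ∀ σ, ∃ a : A, (r σ).val *ᵥ v = a • v
  inert : ∀ σ ∈ IL p, ∃ f : Fin 2 → A, (r σ).val = 1 + vecMulVec v f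

variable {A : Type*} [CommRing A]

/-- conjugation by a matrix whose first column is the line -/
theorem OrdRep.conj {𝔪 : Ideal A} {r : Gal(PadicAlgCl p/ℚ_[p]) →* GL (Fin 2) A} {v : Fin 2 → A}
    (H : OrdRep p 𝔪 r v) (P Q : Matrix (Fin 2) (Fin 2) A) (hPQ : P * Q = 1) (hQP : Q * P = 1)
    (hP : ∀ i, P i 0 = v i) :
    ∃ R : Gal(PadicAlgCl p/ℚ_[p]) →* Matrix (Fin 2) (Fin 2) A,
      UT p 𝔪 R ∧ ∀ g, (r g).val = P * R g * Q := by
  have hPv : P *ᵥ ![1, 0] = v := by
    funext i
    simp [mulVec, dotProduct, Fin.sum_univ_two, hP]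
  have hQv : Q *ᵥ v = ![1, 0] := by rw [← hPv, mulVec_mulVec, hQP, one_mulVec]
  let R : Gal(PadicAlgCl p/ℚ_[p]) →* Matrix (Fin 2) (Fin 2) A :=
    { toFun := fun g => Q * (r g).val * P
      map_one' := by rw [map_one, Units.val_one, mul_one, hQP]
      map_mul' := fun g h => by
        rw [map_mul, Units.val_mul]
        calc Q * ((r g).val * (r h).val) * P = Q * (r g).val * 1 * (r h).val * P := by
              simp only [mul_one, mul_assoc]
          _ = _ := by rw [← hPQ]; simp only [mul_assoc] }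
  have hR : ∀ g, R g = Q * (r g).val * P := fun g => rfl
  refine ⟨R, ⟨?_, ?_, ?_, ?_⟩, fun g => ?_⟩
  · intro σ
    obtain ⟨a, ha⟩ := H.line σ
    have h1 : R σ *ᵥ ![1, 0] = a • ![1, 0] := by
      rw [hR, ← mulVec_mulVec, hPv, ← mulVec_mulVec, ha, mulVec_smul, hQv]
    have h2 := congrFun h1 1
    simpa [mulVec, dotProduct, Fin.sum_univ_two] using h2
  · intro n
    obtain ⟨W, hW, h1⟩ := H.cont n
    refine ⟨W, hW, fun w hw i j => ?_⟩
    have h2 : R w - 1 = Q * ((r w).val - 1) * P := by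
      rw [mul_sub, sub_mul, mul_one, hQP, hR]
    rw [← Matrix.sub_apply, h2, Matrix.mul_apply]
    refine Ideal.sum_mem _ fun l _ => Ideal.mul_mem_right _ _ ?_
    rw [Matrix.mul_apply]
    refine Ideal.sum_mem _ fun m _ => Ideal.mul_mem_left _ _ ?_
    rw [Matrix.sub_apply]
    exact h1 w hw m l
  · intro n σ e he
    have h1 : (R σ).det = (r σ).val.det := by
      rw [hR, det_mul, det_mul, mul_comm Q.det, mul_assoc, ← det_mul, hQP, det_one, mul_one]
    rw [h1]
    exact H.det n σ e he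
  · intro σ hσ
    obtain ⟨f, hf⟩ := H.inert σ hσ
    rw [hR, hf, mul_add, mul_one, add_mul, hQP, mul_vecMulVec, vecMulVec_mul, hQv,
      Matrix.add_apply, Matrix.one_apply_eq, vecMulVec_apply]
    simp
  · rw [hR, ← mul_assoc, ← mul_assoc, hPQ, one_mul, mul_assoc, hPQ, mul_one]

theorem OrdRep.scale {𝔪 : Ideal A} {r : Gal(PadicAlgCl p/ℚ_[p]) →* GL (Fin 2) A} {v : Fin 2 → A}
    (H : OrdRep p 𝔪 r v) {s s' : A} (hs : s' * s = 1) : OrdRep p 𝔪 r (s • v) where
  cont := H.cont
  det := H.det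
  line σ := by
    obtain ⟨a, ha⟩ := H.line σ
    exact ⟨a, by rw [mulVec_smul, ha, smul_comm]⟩
  inert σ hσ := by
    obtain ⟨f, hf⟩ := H.inert σ hσ
    refine ⟨s' • f, ?_⟩
    rw [hf]
    congr 1
    ext i j
    rw [vecMulVec_apply, vecMulVec_apply, Pi.smul_apply, Pi.smul_apply, smul_eq_mul, smul_eq_mul]
    linear_combination (-(v i * f j)) * hs

/-- a normalised form of the line -/
theorem exists_frame [IsLocalRing A] {O k : Type*} [CommRing O] [Field k]
    (φ : O →+* A) (π : A →+* k) {v : Fin 2 → A} (hv : ∃ i, v i ∉ maximalIdeal A) :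
    ∃ (c₀ s s' : A) (P Q : Matrix (Fin 2) (Fin 2) A), s' * s = 1 ∧ P * Q = 1 ∧ Q * P = 1 ∧
      (∀ i, P i 0 = (s • v) i) ∧
      (∀ D ∈ DerSp φ π, D c₀ = 0 → P.map D = 0 ∧ Q.map D = 0) := by
  obtain ⟨i, hi⟩ := hv
  have hi' : IsUnit (v i) := by
    by_contra h
    exact hi ((mem_maximalIdeal _).mpr h)
  obtain ⟨s, hs⟩ := hi'.exists_left_inv
  have hss : v i * s = 1 := by rw [mul_comm]; exact hs
  fin_cases i
  · refine ⟨s * v 1, s, v 0, !![1, 0; s * v 1, 1], !![1, 0; -(s * v 1), 1], hss, ?_, ?_, ?_, ?_⟩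
    · ext i j
      fin_cases i <;> fin_cases j <;> simp [Matrix.mul_apply, Fin.sum_univ_two]
    · ext i j
      fin_cases i <;> fin_cases j <;> simp [Matrix.mul_apply, Fin.sum_univ_two]
    · intro i
      fin_cases i
      · exact hs.symm
      · rfl
    · intro D hD h0
      constructor
      · ext i j
        fin_cases i <;> fin_cases j
        · exact der_one hD
        · exact der_zero hD
        · exact h0
        · exact der_one hD
      · ext i j
        fin_cases i <;> fin_cases j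
        · exact der_one hD
        · exact der_zero hD
        · change D (-(s * v 1)) = 0
          rw [der_neg hD, h0, neg_zero]
        · exact der_one hD
  · refine ⟨s * v 0, s, v 1, !![s * v 0, 1; 1, 0], !![0, 1; 1, -(s * v 0)], hss, ?_, ?_, ?_, ?_⟩
    · ext i j
      fin_cases i <;> fin_cases j <;> simp [Matrix.mul_apply, Fin.sum_univ_two]
    · ext i j
      fin_cases i <;> fin_cases j <;> simp [Matrix.mul_apply, Fin.sum_univ_two]
    · intro i
      fin_cases i
      · rfl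
      · exact hs.symm
    · intro D hD h0
      constructor
      · ext i j
        fin_cases i <;> fin_cases j
        · exact h0
        · exact der_one hD
        · exact der_one hD
        · exact der_zero hD
      · ext i j
        fin_cases i <;> fin_cases j
        · exact der_zero hD
        · exact der_one hD
        · exact der_one hD
        · change D (-(s * v 0)) = 0
          rw [der_neg hD, h0, neg_zero]

/-- **Interface (I2), ordinary case.** The parameters are `c, t, z₁, z₂, z₃`. -/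
theorem exists_ord_params [IsLocalRing A] {O k : Type*} [CommRing O] [Field k] [Finite k]
    {φ : O →+* A} {π : A →+* k}
    (hp2 : p ≠ 2) (hker : RingHom.ker π = maximalIdeal A)
    (hsurj : ∀ x : k, ∃ o : O, π (φ o) = x)
    (hH : ∀ x : A, (∀ n, x ∈ maximalIdeal A ^ n) → x = 0)
    (hpA : (p : A) ∈ maximalIdeal A)
    {r : Gal(PadicAlgCl p/ℚ_[p]) →* GL (Fin 2) A} {v : Fin 2 → A}
    (H : OrdRep p (maximalIdeal A) r v) (hv : ∃ i, v i ∉ maximalIdeal A) :
    ∃ x : Fin 5 → A, (∀ i, x i ∈ maximalIdeal A) ∧ x 1 * x 4 = 0 ∧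
      ((∀ g : Gal(PadicAlgCl p/ℚ_[p]), (∀ y : KK p, gbar g y = y ^ p) → ∀ a : A,
        (r g).val *ᵥ v = a • v → π ((r g).val.det) ^ 2 ≠ π a ^ 2) → x 4 = 0) ∧
      ∀ D ∈ DerSp φ π, (∀ i, D (x i) = 0) → ∀ σ, (r σ).val.map D = 0 := by
  have hmem : ∀ x : A, x ∈ maximalIdeal A ↔ π x = 0 := fun x => by rw [← hker]; exact Iff.rfl
  obtain ⟨d⟩ := exists_dat hp2
  obtain ⟨c₀, s, s', P, Q, hss, hPQ, hQP, hP, hPD⟩ := exists_frame φ π hv
  obtain ⟨R, hR, hrR⟩ := (H.scale hss).conj P Q hPQ hQP hP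
  obtain ⟨t, z₁, z₂, z₃, ht, hz₁, hz₂, hz₃, htz, -, hz0, -, hD⟩ :=
    UT.exists_params (φ := φ) hker hsurj hH hpA hR hp2 d
  obtain ⟨o, ho⟩ := hsurj (π c₀)
  refine ⟨![c₀ - φ o, t, z₁, z₂, z₃], ?_, htz, ?_, ?_⟩
  · intro i
    fin_cases i
    · change c₀ - φ o ∈ maximalIdeal A
      rw [hmem, map_sub, ho, sub_self]
    · exact ht
    · exact hz₁
    · exact hz₂
    · exact hz₃
  · intro h
    refine hz0 fun h1 => ?_
    have h2 : (r d.φ).val *ᵥ v = (R d.φ 0 0) • v := by
      have h3 : P *ᵥ ![1, 0] = s • v := by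
        funext i
        rw [← hP i]
        simp [mulVec, dotProduct, Fin.sum_univ_two]
      have h4 : v = s' • (s • v) := by rw [smul_smul, hss, one_smul]
      have h5 : (r d.φ).val *ᵥ (s • v) = (R d.φ 0 0) • (s • v) := by
        rw [hrR, ← h3, mulVec_mulVec, mul_assoc, mul_assoc, hQP, mul_one, ← mulVec_mulVec,
          ← mulVec_smul]
        congr 1
        funext i
        fin_cases i
        · simp [mulVec, dotProduct, Fin.sum_univ_two]
        · simp [mulVec, dotProduct, Fin.sum_univ_two, hR.low]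
      rw [h4, mulVec_smul, h5, smul_comm]
    refine h d.φ d.hφ _ h2 ?_
    have h6 : (r d.φ).val.det = (R d.φ).det := by
      rw [hrR, det_mul, det_mul, mul_comm P.det, mul_assoc, ← det_mul, hPQ, det_one, mul_one]
    rw [h6, hR.det_eq, map_mul, mul_pow, h1, mul_one]
  · intro D hDer h0 σ
    have h1 := hD D hDer (h0 1) (h0 2) (h0 3) (h0 4) σ
    have h2 : D c₀ = 0 := by
      have h3 : D (c₀ - φ o) = 0 := h0 0
      rwa [der_sub hDer, der_cst hDer, sub_zero] at h3
    obtain ⟨hPm, hQm⟩ := hPD D hDer h2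
    have h3 : (R σ).map D = 0 := by
      ext i j
      exact h1 i j
    rw [hrR, map_mul_der hDer, map_mul_der hDer, hPm, hQm, h3, mul_zero, mul_zero, zero_mul,
      add_zero, zero_mul, add_zero]

end Fermat.Agent.OrdP
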