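import Fermat.Agent.OrdP.Tau
import Fermat.Agent.GCFT.Basic

/-!
# Upper triangular representations of the local Galois group: the relation for the valuation part
-/

set_option autoImplicit false
set_option linter.unusedSectionVars false
set_option linter.style.haveILetI false

namespace Fermat.Agent.OrdP

open Fermat.Agent.Coh Fermat.Agent.GalD Fermat.Agent.LocalCFT Module IntermediateField

variable {p : ℕ} [hp : Fact p.Prime]

local notation "Cp" => PadicAlgCl p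
local notation "GG" => Gal(PadicAlgCl p/ℚ_[p])

/-- Hilbert 90 for subgroups of the local Galois group. -/
theorem h90_sub (K : Subgroup GG) (f : K → Additive Cpˣ)
    (hsm : ((LF p).res K).Sm1 f)
    (hf : ∀ g h : K, f (g * h) = LU p (g : GG) (f h) + f g) :
    ∃ y : Additive Cpˣ, ∀ g : K, f g = LU p (g : GG) y - y := by
  let a : K →* (Cp ≃+* Cp) :=
    { toFun := fun g => ((g : GG) : Cp ≃+* Cp)
      map_one' := rfl
      map_mul' := fun _ _ => rfl }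
  obtain ⟨b, hb⟩ := GCFT.h90 ((LF p).res K) a (by
    rintro _ ⟨W', ⟨L, hL1, hL2, rfl⟩, rfl⟩ g hg
    intro x
    exact hg x fun w hw => hw x) (fun g => (f g).toMul) (hsm.post _) (by
      intro g h
      change uval (f (g * h)) = (g : GG) (uval (f h)) * uval (f g)
      rw [hf, uval_add, uval_unitsRep])
  refine ⟨Additive.ofMul b, fun g => uval_injective ?_⟩
  rw [uval_sub, uval_unitsRep]
  exact hb g

variable {A : Type*} [CommRing A] {𝔪 : Ideal A}

/-- upper triangular representations, ordinary with cyclotomic determinant -/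
structure UT (p : ℕ) [hp : Fact p.Prime] (𝔪 : Ideal A)
    (R : Gal(PadicAlgCl p/ℚ_[p]) →* Matrix (Fin 2) (Fin 2) A) : Prop where
  low : ∀ σ, R σ 1 0 = 0
  cont : ∀ n, ∃ W ∈ LF p, ∀ w ∈ W, ∀ i j, R w i j - (1 : Matrix (Fin 2) (Fin 2) A) i j ∈ 𝔪 ^ n
  det : ∀ (n : ℕ) (σ) (e : ℕ), (∀ ζ : PadicAlgCl p, ζ ^ p ^ n = 1 → σ ζ = ζ ^ e) →
    (R σ).det - (e : A) ∈ Ideal.span {((p ^ n : ℕ) : A)}
  inert : ∀ σ ∈ IL p, R σ 1 1 = 1

namespace UT

theorem a_mul {R : GG →* Matrix (Fin 2) (Fin 2) A} (H : UT p 𝔪 R) (σ τ : GG) : R (σ * τ) 0 0 = R σ 0 0 * R τ 0 0 := by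
  rw [map_mul, Matrix.mul_apply, Fin.sum_univ_two, H.low, mul_zero, add_zero]

theorem d_mul {R : GG →* Matrix (Fin 2) (Fin 2) A} (H : UT p 𝔪 R) (σ τ : GG) : R (σ * τ) 1 1 = R σ 1 1 * R τ 1 1 := by
  rw [map_mul, Matrix.mul_apply, Fin.sum_univ_two, H.low, zero_mul, zero_add]

theorem b_mul {R : GG →* Matrix (Fin 2) (Fin 2) A} (_H : UT p 𝔪 R) (σ τ : GG) :
    R (σ * τ) 0 1 = R σ 0 0 * R τ 0 1 + R σ 0 1 * R τ 1 1 := by
  rw [map_mul, Matrix.mul_apply, Fin.sum_univ_two]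

theorem det_eq {R : GG →* Matrix (Fin 2) (Fin 2) A} (H : UT p 𝔪 R) (σ : GG) : (R σ).det = R σ 0 0 * R σ 1 1 := by
  rw [Matrix.det_fin_two, H.low, mul_zero, sub_zero]

/-- **Kummer theory**: the off-diagonal entry is small on elements of inertia fixing the roots of
unramified elements. -/
theorem kill {R : GG →* Matrix (Fin 2) (Fin 2) A} (H : UT p 𝔪 R) (hp𝔪 : (p : A) ∈ 𝔪) (n : ℕ) {η : GG} (hη : η ∈ IL p)
    (hfix : ∀ y : Cp, y ^ p ^ n ∈ KI p → η y = y) : R η 0 1 ∈ 𝔪 ^ n := by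
  classical
  obtain ⟨W, hW, hWn⟩ := H.cont n
  have hpn : ((p ^ n : ℕ) : A) ∈ 𝔪 ^ n := by
    push_cast
    exact Ideal.pow_mem_pow hp𝔪 n
  -- the reduced cocycle
  set β : IL p → A ⧸ 𝔪 ^ n := fun g => Ideal.Quotient.mk _ (R g 0 1) with hβ
  have hcoc : ∀ (g h : IL p) (e : ℕ), (∀ ζ : Cp, ζ ^ p ^ n = 1 → (g : GG) ζ = ζ ^ e) →
      β (g * h) = e • β h + β g := by
    intro g h e he
    have h1 := H.det n g e he
    rw [H.det_eq, H.inert g g.2, mul_one] at h1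
    have h2 : Ideal.Quotient.mk (𝔪 ^ n) (R g 0 0) = (e : A ⧸ 𝔪 ^ n) := by
      rw [← sub_eq_zero, ← map_natCast (Ideal.Quotient.mk (𝔪 ^ n)), ← map_sub,
        Ideal.Quotient.eq_zero_iff_mem]
      exact (Ideal.span_singleton_le_iff_mem _).mpr hpn h1
    change Ideal.Quotient.mk (𝔪 ^ n) (R ((g : GG) * (h : GG)) 0 1) = _
    rw [H.b_mul, map_add, map_mul, h2, H.inert h h.2, mul_one, nsmul_eq_mul]
  have hsm : ((LF p).res (IL p)).Sm1 β := by
    refine ⟨_, ⟨W, hW, rfl⟩, fun g w hw => ?_⟩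
    change Ideal.Quotient.mk (𝔪 ^ n) (R ((g : GG) * (w : GG)) 0 1) = _
    rw [H.b_mul, map_add, map_mul, H.inert w w.2, mul_one]
    have h1 := hWn w hw 0 1
    rw [Matrix.one_apply_ne (by decide), sub_zero] at h1
    rw [Ideal.Quotient.eq_zero_iff_mem.mpr h1, mul_zero, zero_add]
  -- the finite group generated by the values
  have hfr := hsm.finite_range
  set G₀ := AddSubgroup.closure (Set.range β) with hG₀
  have hker : ∀ x : A ⧸ 𝔪 ^ n, (p ^ n) • x = 0 := by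
    intro x
    rw [nsmul_eq_mul]
    have : ((p ^ n : ℕ) : A ⧸ 𝔪 ^ n) = 0 := by
      rw [← map_natCast (Ideal.Quotient.mk (𝔪 ^ n)), Ideal.Quotient.eq_zero_iff_mem]
      exact hpn
    rw [this, zero_mul]
  have hfin : Finite (Multiplicative G₀) := by
    have : AddGroup.FG G₀ := by
      exact (AddGroup.fg_iff_addSubgroup_fg G₀).mpr
        ⟨hfr.toFinset, by rw [Set.Finite.coe_toFinset]⟩
    have : Group.FG (Multiplicative G₀) := inferInstance
    refine CommGroup.finite_of_fg_isMulTorsion _ fun x => ?_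
    rw [isOfFinOrder_iff_pow_eq_one]
    refine ⟨p ^ n, pow_pos hp.out.pos n, ?_⟩
    apply Multiplicative.toAdd.injective
    apply Subtype.ext
    exact hker _
  by_contra hcon
  have hne : (Multiplicative.ofAdd (⟨β ⟨η, hη⟩, AddSubgroup.subset_closure ⟨_, rfl⟩⟩ : G₀)) ≠ 1 := by
    intro h
    apply hcon
    have h1 := congrArg (fun x : Multiplicative G₀ => ((Multiplicative.toAdd x : G₀) : A ⧸ 𝔪 ^ n)) h
    exact Ideal.Quotient.eq_zero_iff_mem.mp h1
  have : NeZero (Monoid.exponent (Multiplicative G₀)) := ⟨Monoid.exponent_ne_zero_of_finite⟩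
  have : NeZero ((Monoid.exponent (Multiplicative G₀) : ℕ) : PadicAlgCl p) := ⟨by
    exact_mod_cast Monoid.exponent_ne_zero_of_finite (G := Multiplicative G₀)⟩
  obtain ⟨Λ, hΛ⟩ := CommGroup.exists_apply_ne_one_of_hasEnoughRootsOfUnity
    (Multiplicative G₀) (PadicAlgCl p) hne
  set z : IL p → Additive Cpˣ := fun g => Additive.ofMul
    (Λ (Multiplicative.ofAdd (⟨β g, AddSubgroup.subset_closure ⟨g, rfl⟩⟩ : G₀))) with hz
  have hzp : ∀ g, uval (z g) ^ p ^ n = 1 := by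
    intro g
    have h1 : (Λ (Multiplicative.ofAdd (⟨β g, AddSubgroup.subset_closure ⟨g, rfl⟩⟩ : G₀))) ^ p ^ n = 1 := by
      rw [← map_pow]
      have : (Multiplicative.ofAdd (⟨β g, AddSubgroup.subset_closure ⟨g, rfl⟩⟩ : G₀)) ^ p ^ n = 1 := by
        apply Multiplicative.toAdd.injective
        apply Subtype.ext
        exact hker _
      rw [this, map_one]
    have h2 := congrArg Units.val h1
    rw [Units.val_pow_eq_pow_val] at h2
    exact h2
  obtain ⟨y, hy⟩ := h90_sub (IL p) z (by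
    obtain ⟨V, hV, h1⟩ := hsm
    refine ⟨V, hV, fun g w hw => ?_⟩
    simp only [hz, h1 g w hw]) (by
    intro g h
    obtain ⟨e, he⟩ := exists_exp (g : GG) n
    apply uval_injective
    rw [uval_add, uval_unitsRep, he _ (hzp h)]
    have h1 : (Multiplicative.ofAdd (⟨β (g * h), AddSubgroup.subset_closure ⟨_, rfl⟩⟩ : G₀)) =
        (Multiplicative.ofAdd (⟨β h, AddSubgroup.subset_closure ⟨_, rfl⟩⟩ : G₀)) ^ e *
        (Multiplicative.ofAdd (⟨β g, AddSubgroup.subset_closure ⟨_, rfl⟩⟩ : G₀)) := by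
      apply Multiplicative.toAdd.injective
      apply Subtype.ext
      exact hcoc g h e he
    change ((Λ _ : Cpˣ) : Cp) = _
    rw [h1, map_mul, map_pow, Units.val_mul, Units.val_pow_eq_pow_val]
    rfl)
  -- `y` is a root of an unramified element
  have hyK : uval y ^ p ^ n ∈ KI p := by
    refine mem_fld.mpr fun g hg => ?_
    have h1 := congrArg uval (hy ⟨g, hg⟩)
    rw [uval_sub, uval_unitsRep] at h1
    have h2 := hzp ⟨g, hg⟩
    rw [h1, div_pow, div_eq_one_iff_eq (pow_ne_zero _ (uval_ne_zero y))] at h2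
    rw [map_pow]
    exact h2
  apply hΛ
  have h1 := congrArg uval (hy ⟨η, hη⟩)
  rw [uval_sub, uval_unitsRep] at h1
  change ((Λ _ : Cpˣ) : Cp) = _ at h1
  apply Units.ext
  rw [h1]
  change η (uval y) / uval y = 1
  rw [hfix _ hyK, div_self (uval_ne_zero y)]

end UT

/-- the set of roots of units is stable -/
theorem YL_stable (σ : GG) {y : Cp} (hy : y ∈ YL p) : σ y ∈ YL p := by
  obtain ⟨h1, n, h2⟩ := hy
  refine ⟨by rw [norm_gal, h1], n, mem_fld.mpr fun g hg => ?_⟩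
  rw [← map_pow]
  have h3 : (σ⁻¹ * g * σ) (y ^ p ^ n) = y ^ p ^ n := by
    refine mem_fld.mp h2 _ ?_
    have := (inferInstance : (IL p).Normal).conj_mem g hg σ⁻¹
    rwa [inv_inv] at this
  have h4 := congrArg σ h3
  rw [← AlgEquiv.mul_apply] at h4
  have h5 : σ * (σ⁻¹ * g * σ) = g * σ := by group
  rwa [h5, AlgEquiv.mul_apply] at h4

theorem root_mem_YL {n : ℕ} {ζ : Cp} (h : ζ ^ p ^ n = 1) : ζ ∈ YL p :=
  ⟨norm_of_pow_eq_one (pow_ne_zero _ hp.out.ne_zero) h, n, by rw [h]; exact one_mem _⟩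

/-- `σ τ σ⁻¹` and `τ ^ e` agree on roots of unramified elements. -/
theorem conj_tau {τ : GG} (hτ : τ ∈ IL p) (hτY : ∀ y ∈ YL p, τ y = y) (σ : GG) {n e : ℕ}
    (he : ∀ ζ : Cp, ζ ^ p ^ n = 1 → σ ζ = ζ ^ e) {y : Cp} (hy : y ^ p ^ n ∈ KI p) :
    (σ * τ * σ⁻¹) y = (τ ^ e) y := by
  have hpow : ∀ (j : ℕ) (z : Cp), τ z = z → (τ ^ j) z = z := by
    intro j z hz
    induction j with
    | zero => rfl
    | succ j ih => rw [pow_succ, AlgEquiv.mul_apply, hz, ih]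
  by_cases hy0 : y = 0
  · rw [hy0, map_zero, map_zero]
  have hσY : ∀ z ∈ YL p, (σ * τ * σ⁻¹) z = (τ ^ e) z := by
    intro z hz
    rw [AlgEquiv.mul_apply, AlgEquiv.mul_apply, hτY _ (YL_stable _ hz), hpow _ _ (hτY z hz),
      ← AlgEquiv.mul_apply, mul_inv_cancel, AlgEquiv.one_apply]
  obtain ⟨ϖ, hϖ⟩ := IsAlgClosed.exists_pow_nat_eq (p : Cp) (n := p ^ n) (pow_pos hp.out.pos n)
  have hϖ0 : ϖ ≠ 0 := by
    rintro rfl
    rw [zero_pow (pow_ne_zero _ hp.out.ne_zero)] at hϖ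
    exact l_ne_zero hϖ.symm
  have hroot : ∀ g : GG, (g ϖ / ϖ) ^ p ^ n = 1 := by
    intro g
    rw [div_pow, ← map_pow, hϖ, map_natCast, div_self l_ne_zero]
  have hσϖ : (σ * τ * σ⁻¹) ϖ = (τ ^ e) ϖ := by
    set ω := σ⁻¹ ϖ / ϖ with hω
    set ζ := τ ϖ / ϖ with hζ
    have h1 : σ⁻¹ ϖ = ω * ϖ := by rw [hω, div_mul_cancel₀ _ hϖ0]
    have h2 : τ ϖ = ζ * ϖ := by rw [hζ, div_mul_cancel₀ _ hϖ0]
    have h3 : τ ω = ω := hτY _ (root_mem_YL (hroot σ⁻¹))
    have h4 : τ ζ = ζ := hτY _ (root_mem_YL (hroot τ))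
    have h5 : σ (ω * ϖ) = ϖ := by
      rw [← h1, ← AlgEquiv.mul_apply, mul_inv_cancel, AlgEquiv.one_apply]
    have h6 : ∀ j : ℕ, (τ ^ j) ϖ = ζ ^ j * ϖ := by
      intro j
      induction j with
      | zero => rw [pow_zero, pow_zero, one_mul]; rfl
      | succ j ih =>
        rw [pow_succ, AlgEquiv.mul_apply, h2, map_mul, ih, hpow j ζ h4]
        ring
    rw [AlgEquiv.mul_apply, AlgEquiv.mul_apply, h1, map_mul, h3, h2, h6, ← he ζ (hroot τ)]
    have h7 : ω * (ζ * ϖ) = ζ * (ω * ϖ) := by ring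
    rw [h7, map_mul, h5]
  obtain ⟨k, hk⟩ := norm_of_fixed (pow_ne_zero _ hy0) fun g hg => mem_fld.mp hy g hg
  have hu : y * ϖ ^ k ∈ YL p := by
    have h1 : (y * ϖ ^ k) ^ p ^ n = y ^ p ^ n * (p : Cp) ^ k := by
      rw [mul_pow, ← zpow_natCast (ϖ ^ k), ← zpow_mul, mul_comm k, zpow_mul, zpow_natCast, hϖ]
    have h2 : (y * ϖ ^ k) ^ p ^ n ∈ KI p := by
      rw [h1]
      exact mul_mem hy (zpow_mem (IntermediateField.natCast_mem _ p) _)
    refine ⟨?_, n, h2⟩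
    have h3 : ‖(y * ϖ ^ k)‖ ^ p ^ n = 1 := by
      rw [← norm_pow, h1, norm_mul, hk, norm_zpow, norm_l, inv_zpow,
        mul_inv_cancel₀ (zpow_ne_zero _ l_pos.ne')]
    exact (pow_eq_one_iff_of_nonneg (norm_nonneg _) (pow_ne_zero _ hp.out.ne_zero)).mp h3
  have h1 : y = (y * ϖ ^ k) * ϖ ^ (-k) := by
    rw [mul_assoc, ← zpow_add₀ hϖ0, add_neg_cancel, zpow_zero, mul_one]
  have h2 : ∀ g : GG, g y = g (y * ϖ ^ k) * g ϖ ^ (-k) := by
    intro g
    rw [← map_zpow₀, ← map_mul, ← h1]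
  rw [h2, h2 (τ ^ e), hσY _ hu, hσϖ]

/-- **The relation.** -/
theorem UT.rel [IsLocalRing A] {R : GG →* Matrix (Fin 2) (Fin 2) A}
    (H : UT p (IsLocalRing.maximalIdeal A) R)
    (hpA : (p : A) ∈ IsLocalRing.maximalIdeal A)
    (hH : ∀ x : A, (∀ n, x ∈ IsLocalRing.maximalIdeal A ^ n) → x = 0)
    {τ : GG} (hτ : τ ∈ IL p) (hτY : ∀ y ∈ YL p, τ y = y) (σ : GG) :
    ((R σ 1 1) ^ 2 - 1) * R τ 0 1 = 0 := by
  set 𝔪 := IsLocalRing.maximalIdeal A with h𝔪
  have hpn : ∀ n, ((p ^ n : ℕ) : A) ∈ 𝔪 ^ n := by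
    intro n
    push_cast
    exact Ideal.pow_mem_pow hpA n
  have hdet : (R τ).det = 1 := by
    rw [← sub_eq_zero]
    apply hH
    intro n
    have h1 := H.det n τ 1 (fun ζ hζ => by rw [pow_one, hτY _ (root_mem_YL hζ)])
    rw [Nat.cast_one] at h1
    exact (Ideal.span_singleton_le_iff_mem _).mpr (hpn n) h1
  have ha : R τ 0 0 = 1 := by
    rw [H.det_eq, H.inert τ hτ, mul_one] at hdet
    exact hdet
  have hd : R τ 1 1 = 1 := H.inert τ hτ
  apply hH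
  intro n
  -- work at level `n + 1`
  obtain ⟨e, he⟩ := exists_exp σ (n + 1)
  set η := (τ ^ e)⁻¹ * (σ * τ * σ⁻¹) with hη
  have hηI : η ∈ IL p := mul_mem (inv_mem (pow_mem hτ e))
    ((inferInstance : (IL p).Normal).conj_mem τ hτ σ)
  have hbη : R η 0 1 ∈ 𝔪 ^ (n + 1) := by
    refine H.kill hpA (n + 1) hηI fun y hy => ?_
    rw [hη, AlgEquiv.mul_apply, conj_tau hτ hτY σ he hy, ← AlgEquiv.mul_apply, inv_mul_cancel,
      AlgEquiv.one_apply]
  have hpow : ∀ j : ℕ, R (τ ^ j) 0 0 = 1 ∧ R (τ ^ j) 1 1 = 1 ∧ R (τ ^ j) 0 1 = j * R τ 0 1 := by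
    intro j
    induction j with
    | zero =>
      rw [pow_zero, map_one]
      simp
    | succ j ih =>
      obtain ⟨h1, h2, h3⟩ := ih
      rw [pow_succ, H.a_mul, H.d_mul, H.b_mul, h1, h2, h3, ha, hd]
      refine ⟨by ring, by ring, ?_⟩
      push_cast
      ring
  -- compute the conjugate
  have hστ : (σ * τ * σ⁻¹) = τ ^ e * η := by rw [hη]; group
  have h1 := H.b_mul (σ * τ * σ⁻¹) σ
  have h2 : σ * τ * σ⁻¹ * σ = σ * τ := by group
  have h3 : R (σ * τ * σ⁻¹) 0 0 = 1 := by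
    rw [H.a_mul, H.a_mul, ha, mul_one, ← H.a_mul, mul_inv_cancel, map_one]
    simp
  rw [h2, H.b_mul, h3, hd, mul_one, one_mul, hστ, H.b_mul, (hpow e).1, (hpow e).2.2,
    H.inert η hηI, mul_one, one_mul] at h1
  -- h1 : a(σ) b(τ) + b(σ) = b(σ) + (b(η) + e b(τ)) d(σ)
  have h4 := H.det (n + 1) σ e he
  rw [H.det_eq, Ideal.mem_span_singleton] at h4
  obtain ⟨c, hc⟩ := h4
  have h5 : (e : A) * (((R σ 1 1) ^ 2 - 1) * R τ 0 1) =
      ((p ^ (n + 1) : ℕ) : A) * (c * R τ 0 1) - R η 0 1 * (R σ 1 1) ^ 2 := by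
    linear_combination (-(R σ 1 1)) * h1 + (R τ 0 1) * hc
  have h6 : (e : A) * (((R σ 1 1) ^ 2 - 1) * R τ 0 1) ∈ 𝔪 ^ (n + 1) := by
    rw [h5]
    exact sub_mem (Ideal.mul_mem_right _ _ (hpn _)) (Ideal.mul_mem_right _ _ hbη)
  -- `e` is a unit
  have hep : ¬ p ∣ e := by
    intro h
    obtain ⟨z, hz⟩ := exists_prim (p := p) (Ω := PadicAlgCl p) 1
    rw [pow_one] at hz
    have h7 := he z (by rw [pow_succ', pow_mul, hz.pow_eq_one, one_pow])
    obtain ⟨r, rfl⟩ := h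
    rw [pow_mul, hz.pow_eq_one, one_pow] at h7
    have h8 : z = 1 := σ.injective (by rw [h7, map_one])
    exact hz.ne_one hp.out.one_lt h8
  have heu : IsUnit (e : A) := by
    by_contra hcon
    have h7 : (e : A) ∈ 𝔪 := (IsLocalRing.mem_maximalIdeal _).mpr hcon
    obtain ⟨u, v, huv⟩ := Nat.isCoprime_iff_coprime.mpr
      ((Nat.coprime_comm.mp (hp.out.coprime_iff_not_dvd.mpr hep)))
    have h8 : (1 : A) = (u : A) * (e : A) + (v : A) * (p : A) := by
      have := congrArg (fun x : ℤ => (x : A)) huv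
      push_cast at this
      exact this.symm
    have h9 : (1 : A) ∈ 𝔪 := by
      rw [h8]
      exact add_mem (Ideal.mul_mem_left _ _ h7) (Ideal.mul_mem_left _ _ hpA)
    exact (IsLocalRing.mem_maximalIdeal _).mp h9 isUnit_one
  obtain ⟨w, hw⟩ := heu.exists_left_inv
  have h7 := Ideal.mul_mem_left (𝔪 ^ (n + 1)) w h6
  rw [← mul_assoc, hw, one_mul] at h7
  exact Ideal.pow_le_pow_right (Nat.le_succ n) h7

end Fermat.Agent.OrdP
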