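import Fermat.Agent.OrdP.InertL
import Fermat.Agent.LocalCFT.CycP

/-!
# An element of inertia fixing all roots of units and moving the roots of `p`
-/

set_option autoImplicit false
set_option linter.unusedSectionVars false
set_option linter.style.haveILetI false

namespace Fermat.Agent.OrdP

open Fermat.Agent.Coh Fermat.Agent.GalD Fermat.Agent.LocalCFT Module IntermediateField

variable {p : ℕ} [hp : Fact p.Prime]

local notation "Cp" => PadicAlgCl p
local notation "GG" => Gal(PadicAlgCl p/ℚ_[p])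

variable (p) in
/-- the maximal unramified extension -/
noncomputable abbrev KI : IntermediateField ℚ_[p] (PadicAlgCl p) := fld (IL p)

theorem isClosed_IL : IsClosed (IL p : Set GG) := by
  have h : (IL p : Set GG) = ⋂ m : ℕ, (WL p (m + 1) : Set GG) := by
    ext g
    rw [Set.mem_iInter]
    constructor
    · intro h m
      exact IL_le_WL _ h
    · intro h y
      obtain ⟨m, hm, hy⟩ := exists_mem_FF' y
      obtain ⟨n, rfl⟩ := Nat.exists_eq_succ_of_ne_zero hm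
      exact h n y hy
  rw [h]
  exact isClosed_iInter fun m => Subgroup.isClosed_of_isOpen _
    (topOpen (isOpen_WL (l := p) (Nat.succ_ne_zero m)))

/-- an element fixing the maximal unramified extension is in the inertia group -/
theorem mem_IL_of_fixes {g : GG} (h : ∀ x ∈ KI p, g x = x) : g ∈ IL p := by
  have h1 := InfiniteGalois.fixingSubgroup_fixedField (k := ℚ_[p]) (K := PadicAlgCl p)
    ⟨IL p, isClosed_IL⟩
  have h2 : g ∈ (fixedField ((⟨IL p, isClosed_IL⟩ : ClosedSubgroup GG) : Subgroup GG)).fixingSubgroup := by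
    rw [IntermediateField.mem_fixingSubgroup_iff]
    intro x hx
    exact h x hx
  rw [h1] at h2
  exact h2

/-- roots of units -/
def YL (p : ℕ) [hp : Fact p.Prime] : Set (PadicAlgCl p) := {y | ‖y‖ = 1 ∧ ∃ n, y ^ p ^ n ∈ KI p}

theorem YL_ne_zero {y : Cp} (hy : y ∈ YL p) : y ≠ 0 := by
  rintro rfl
  have := hy.1
  rw [norm_zero] at this
  exact zero_ne_one this

theorem one_mem_YL : (1 : Cp) ∈ YL p := ⟨norm_one, 0, by rw [one_pow]; exact one_mem _⟩

theorem mul_mem_YL {y z : Cp} (hy : y ∈ YL p) (hz : z ∈ YL p) : y * z ∈ YL p := by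
  obtain ⟨h1, n, h2⟩ := hy
  obtain ⟨h1', n', h2'⟩ := hz
  refine ⟨by rw [norm_mul, h1, h1', one_mul], n + n', ?_⟩
  rw [mul_pow]
  refine mul_mem ?_ ?_
  · rw [pow_add, pow_mul]
    exact pow_mem h2 _
  · rw [pow_add, mul_comm, pow_mul]
    exact pow_mem h2' _

/-- the subgroup of inertia fixing all `p`-power roots of unity -/
def HL (p : ℕ) [hp : Fact p.Prime] : Subgroup Gal(PadicAlgCl p/ℚ_[p]) where
  carrier := {g | g ∈ IL p ∧ ∀ (n : ℕ) (ζ : PadicAlgCl p), ζ ^ p ^ n = 1 → g ζ = ζ}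
  one_mem' := ⟨one_mem _, fun _ _ _ => rfl⟩
  mul_mem' := by
    rintro a b ⟨ha1, ha2⟩ ⟨hb1, hb2⟩
    exact ⟨mul_mem ha1 hb1, fun n ζ h => by rw [AlgEquiv.mul_apply, hb2 n ζ h, ha2 n ζ h]⟩
  inv_mem' := by
    rintro a ⟨ha1, ha2⟩
    refine ⟨inv_mem ha1, fun n ζ h => ?_⟩
    have h1 := ha2 n ζ h
    have h2 : a⁻¹ (a ζ) = ζ := by rw [← AlgEquiv.mul_apply, inv_mul_cancel, AlgEquiv.one_apply]
    rwa [h1] at h2

/-- exponent of the action on roots of unity -/
theorem exists_exp (σ : GG) (n : ℕ) : ∃ e : ℕ, ∀ ζ : Cp, ζ ^ p ^ n = 1 → σ ζ = ζ ^ e := by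
  obtain ⟨z, hz⟩ := exists_prim (p := p) (Ω := PadicAlgCl p) n
  have : NeZero (p ^ n) := ⟨pow_ne_zero _ hp.out.ne_zero⟩
  obtain ⟨e, -, he⟩ := hz.eq_pow_of_pow_eq_one (ξ := σ z) (by
    rw [← map_pow, hz.pow_eq_one, map_one])
  refine ⟨e, fun ζ hζ => ?_⟩
  obtain ⟨i, -, rfl⟩ := hz.eq_pow_of_pow_eq_one hζ
  rw [map_pow, ← he, ← pow_mul, ← pow_mul, mul_comm]

/-- inertia moves the `p`-th roots of unity -/
theorem exists_moves (hp2 : p ≠ 2) {ζ : Cp} (hζ : IsPrimitiveRoot ζ p) :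
    ∃ σ ∈ IL p, σ ζ ≠ ζ := by
  by_contra hcon
  push Not at hcon
  have hζ' : IsPrimitiveRoot ζ (p ^ (0 + 1)) := by rwa [zero_add, pow_one]
  have h0 := one_sub_ne_zero 0 hζ'
  obtain ⟨k, hk⟩ := norm_of_fixed h0 fun g hg => by rw [map_sub, map_one, hcon g hg]
  have h1 := norm_one_sub_pow 0 hζ'
  rw [zero_add, pow_one, Nat.totient_prime hp.out, hk, ← zpow_natCast, ← zpow_mul,
    ← zpow_neg_one] at h1
  have h2 := zpow_right_injective₀ (l_pos (l := p)) (one_lt_l (l := p)).ne' h1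
  have h3 : ((p - 1 : ℕ) : ℤ) ∣ 1 := ⟨-k, by linarith⟩
  have h4 : p - 1 ∣ 1 := by exact_mod_cast h3
  have h5 := Nat.dvd_one.mp h4
  have := hp.out.two_le
  omega

/-- Elements fixed by `HL` some `p`-power of which is unramified have integral valuation. -/
theorem norm_of_HL (hp2 : p ≠ 2) {x : Cp} (hx0 : x ≠ 0) (hx : ∀ g ∈ HL p, g x = x) {n : ℕ}
    (hn : x ^ p ^ n ∈ KI p) : ∃ k : ℤ, ‖x‖ = (p : ℝ) ^ k := by
  -- enlarge `n`
  have hn1 : x ^ p ^ (n + 1) ∈ KI p := by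
    rw [pow_succ, pow_mul]
    exact pow_mem hn _
  set N := n + 1 with hN
  obtain ⟨z, hz⟩ := exists_prim (p := p) (Ω := PadicAlgCl p) 1
  rw [pow_one] at hz
  obtain ⟨σ₀, hσ₀, hmove⟩ := exists_moves hp2 hz
  obtain ⟨e₀, he₀⟩ := exists_exp σ₀ N
  -- the cocycle
  have hC : ∀ σ ∈ IL p, (σ x / x) ^ p ^ N = 1 := by
    intro σ hσ
    rw [div_pow, ← map_pow, mem_fld.mp hn1 σ hσ, div_self (pow_ne_zero _ hx0)]
  have hC0 : ∀ σ : GG, σ x / x ≠ 0 := fun σ => div_ne_zero (by rwa [Ne, map_eq_zero]) hx0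
  have hzN : z ^ p ^ N = 1 := by
    rw [hN, pow_succ', pow_mul, hz.pow_eq_one, one_pow]
  have hcop : (Int.natAbs ((e₀ : ℤ) - 1)).Coprime p := by
    rw [Nat.coprime_comm, hp.out.coprime_iff_not_dvd]
    intro h
    apply hmove
    have h1 : (p : ℤ) ∣ (e₀ : ℤ) - 1 := Int.natCast_dvd.mpr h
    obtain ⟨c, hc⟩ := h1
    rw [he₀ z hzN]
    have h2 : z ^ (e₀ : ℤ) = z ^ (1 + (p : ℤ) * c) := by
      rw [← hc]
      congr 1
      ring
    have hz0 : z ≠ 0 := hz.ne_zero hp.out.ne_zero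
    rw [zpow_natCast, zpow_add₀ hz0, zpow_one, zpow_mul, zpow_natCast, hz.pow_eq_one, one_zpow,
      mul_one] at h2
    exact h2
  have hcomm : ∀ σ ∈ IL p, σ (σ₀ x) = σ₀ (σ x) := by
    intro σ hσ
    have hκ : (σ₀ * σ)⁻¹ * (σ * σ₀) ∈ HL p := by
      refine ⟨mul_mem (inv_mem (mul_mem hσ₀ hσ)) (mul_mem hσ hσ₀), fun m ζ hζ => ?_⟩
      obtain ⟨e, he⟩ := exists_exp σ m
      obtain ⟨e', he'⟩ := exists_exp σ₀ m
      have h1 : (σ * σ₀) ζ = (σ₀ * σ) ζ := by
        rw [AlgEquiv.mul_apply, AlgEquiv.mul_apply, he' ζ hζ, he ζ hζ, map_pow, map_pow, he ζ hζ,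
          he' ζ hζ, ← pow_mul, ← pow_mul, mul_comm]
      rw [AlgEquiv.mul_apply, h1, ← AlgEquiv.mul_apply, inv_mul_cancel, AlgEquiv.one_apply]
    have h1 := hx _ hκ
    have h2 := congrArg (σ₀ * σ) h1
    rw [← AlgEquiv.mul_apply, mul_inv_cancel_left] at h2
    exact h2
  obtain ⟨u, v, huv⟩ : ∃ u v : ℤ, u * ((e₀ : ℤ) - 1) + v * (p : ℤ) ^ N = 1 := by
    have h1 : IsCoprime ((e₀ : ℤ) - 1) ((p : ℤ) ^ N) := by
      apply IsCoprime.pow_right
      rw [Int.isCoprime_iff_gcd_eq_one]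
      exact hcop
    exact h1
  set ξ := (σ₀ x / x) ^ u with hξ
  have hξ0 : ξ ≠ 0 := zpow_ne_zero _ (hC0 σ₀)
  have hξN : ξ ^ p ^ N = 1 := by
    rw [hξ, ← zpow_natCast, ← zpow_mul, mul_comm, zpow_mul, zpow_natCast, hC σ₀ hσ₀, one_zpow]
  have hξn : ‖ξ‖ = 1 := norm_of_pow_eq_one (pow_ne_zero _ hp.out.ne_zero) hξN
  have hfix : ∀ σ ∈ IL p, σ (x / ξ) = x / ξ := by
    intro σ hσ
    obtain ⟨e, he⟩ := exists_exp σ N
    -- the basic identity
    have h1 : (σ x / x) ^ ((e₀ : ℤ) - 1) = (σ₀ x / x) ^ ((e : ℤ) - 1) := by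
      have h2 : σ (σ₀ x) / x = (σ₀ x / x) ^ e * (σ x / x) := by
        rw [← he _ (hC σ₀ hσ₀), map_div₀]
        have : σ x ≠ 0 := by rwa [Ne, map_eq_zero]
        field_simp
      have h3 : σ₀ (σ x) / x = (σ x / x) ^ e₀ * (σ₀ x / x) := by
        rw [← he₀ _ (hC σ hσ), map_div₀]
        have : σ₀ x ≠ 0 := by rwa [Ne, map_eq_zero]
        field_simp
      rw [hcomm σ hσ, h3] at h2
      rw [zpow_sub_one₀ (hC0 σ), zpow_sub_one₀ (hC0 σ₀), zpow_natCast, zpow_natCast,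
        ← div_eq_mul_inv, ← div_eq_mul_inv, div_eq_div_iff (hC0 σ) (hC0 σ₀)]
      exact h2
    have h4 : σ ξ = ξ * (σ x / x) := by
      have h5 : σ ξ = ξ ^ (e : ℤ) := by rw [zpow_natCast]; exact he ξ hξN
      have h6 : ξ ^ (e : ℤ) = ξ * ξ ^ ((e : ℤ) - 1) := by
        rw [← zpow_one_add₀ hξ0]
        congr 1
        ring
      have h7 : ξ ^ ((e : ℤ) - 1) = σ x / x := by
        rw [hξ, ← zpow_mul, mul_comm, zpow_mul, ← h1, ← zpow_mul, mul_comm]
        have h8 : u * ((e₀ : ℤ) - 1) = 1 + (p : ℤ) ^ N * (-v) := by linarith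
        rw [h8, zpow_add₀ (hC0 σ), zpow_one, zpow_mul]
        have h9 : (σ x / x) ^ ((p : ℤ) ^ N) = 1 := by
          have := hC σ hσ
          rw [← zpow_natCast] at this
          exact_mod_cast this
        rw [h9, one_zpow, mul_one]
      rw [h5, h6, h7]
    rw [map_div₀, h4]
    have : σ x ≠ 0 := by rwa [Ne, map_eq_zero]
    field_simp
  obtain ⟨k, hk⟩ := norm_of_fixed (div_ne_zero hx0 hξ0) hfix
  refine ⟨k, ?_⟩
  rw [← hk, norm_div, hξn, div_one]

/-- the norm of a `p`-th root of `p` is not a power of `p` -/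
theorem norm_varpi {ϖ : Cp} (hϖ : ϖ ^ p = p) (k : ℤ) : ‖ϖ‖ ≠ (p : ℝ) ^ k := by
  intro h
  have h1 : ‖ϖ‖ ^ p = (p : ℝ)⁻¹ := by rw [← norm_pow, hϖ, norm_l]
  rw [h, ← zpow_natCast, ← zpow_mul, ← zpow_neg_one] at h1
  have h2 := zpow_right_injective₀ (l_pos (l := p)) (one_lt_l (l := p)).ne' h1
  have h3 : (p : ℤ) ∣ 1 := ⟨-k, by linarith⟩
  have h4 : p ∣ 1 := by exact_mod_cast h3
  exact hp.out.one_lt.ne' (Nat.dvd_one.mp h4)

/-- **Existence of `τ`.** -/
theorem exists_tau (hp2 : p ≠ 2) {ϖ : Cp} (hϖ : ϖ ^ p = p) :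
    ∃ τ ∈ IL p, (∀ y ∈ YL p, τ y = y) ∧ τ ϖ ≠ ϖ := by
  by_contra hcon
  push Not at hcon
  have hϖ0 : ϖ ≠ 0 := by
    rintro rfl
    rw [zero_pow hp.out.ne_zero] at hϖ
    exact l_ne_zero hϖ.symm
  set W : IntermediateField ℚ_[p] (PadicAlgCl p) := adjoin ℚ_[p] ((KI p : Set Cp) ∪ YL p) with hW
  have h1 : ϖ ∈ W := by
    rw [← InfiniteGalois.fixedField_fixingSubgroup W, IntermediateField.mem_fixedField_iff]
    intro g hg
    rw [IntermediateField.mem_fixingSubgroup_iff] at hg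
    refine hcon g (mem_IL_of_fixes fun x hx => hg x (subset_adjoin _ _ (Or.inl hx)))
      fun y hy => hg y (subset_adjoin _ _ (Or.inr hy))
  -- the span
  set K : IntermediateField ℚ_[p] (PadicAlgCl p) := fld (HL p) with hK
  have hKI : ∀ x ∈ KI p, x ∈ K := fun x hx => mem_fld.mpr fun g hg => mem_fld.mp hx g hg.1
  have h2 : ϖ ∈ Submodule.span K (YL p) := by
    have h3 : W.toSubalgebra = Algebra.adjoin ℚ_[p] ((KI p : Set Cp) ∪ YL p) :=
      adjoin_toSubalgebra_of_isAlgebraic fun x _ => Algebra.IsAlgebraic.isAlgebraic x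
    have h4 : ϖ ∈ Algebra.adjoin ℚ_[p] ((KI p : Set Cp) ∪ YL p) := by
      rw [← h3]
      exact h1
    have h1s : (1 : Cp) ∈ Submodule.span K (YL p) := Submodule.subset_span one_mem_YL
    have hmulY : ∀ (a : Cp), a ∈ Submodule.span K (YL p) → ∀ y ∈ YL p,
        a * y ∈ Submodule.span K (YL p) := by
      intro a ha y hy
      induction ha using Submodule.span_induction with
      | mem z hz => exact Submodule.subset_span (mul_mem_YL hz hy)
      | zero => rw [zero_mul]; exact zero_mem _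
      | add a b _ _ ha hb => rw [add_mul]; exact add_mem ha hb
      | smul c a _ ha => rw [smul_mul_assoc]; exact Submodule.smul_mem _ c ha
    have hmul : ∀ a b : Cp, a ∈ Submodule.span K (YL p) → b ∈ Submodule.span K (YL p) →
        a * b ∈ Submodule.span K (YL p) := by
      intro a b ha hb
      induction hb using Submodule.span_induction with
      | mem z hz => exact hmulY a ha z hz
      | zero => rw [mul_zero]; exact zero_mem _
      | add x y _ _ hx hy => rw [mul_add]; exact add_mem hx hy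
      | smul c x _ hx => rw [mul_smul_comm]; exact Submodule.smul_mem _ c hx
    have hKs : ∀ x ∈ K, x ∈ Submodule.span K (YL p) := by
      intro x hx
      have := Submodule.smul_mem (Submodule.span K (YL p)) (⟨x, hx⟩ : K) h1s
      rwa [Algebra.smul_def, mul_one] at this
    refine Algebra.adjoin_induction (p := fun x _ => x ∈ Submodule.span K (YL p)) ?_ ?_ ?_ ?_ h4
    · rintro x (hx | hx)
      · exact hKs x (hKI x hx)
      · exact Submodule.subset_span hx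
    · intro r
      exact hKs _ (K.algebraMap_mem r)
    · intro x y _ _ hx hy
      exact add_mem hx hy
    · intro x y _ _ hx hy
      exact hmul x y hx hy
  obtain ⟨b, hbY, hbs, hbli⟩ := exists_linearIndependent K (YL p)
  rw [← hbs, Finsupp.mem_span_iff_linearCombination] at h2
  obtain ⟨f, hf⟩ := h2
  have hf0 : ∃ y, f y ≠ 0 := by
    by_contra hcon2
    push Not at hcon2
    have : f = 0 := Finsupp.ext hcon2
    rw [this, map_zero] at hf
    exact hϖ0 hf.symm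
  obtain ⟨y₀, hy₀⟩ := hf0
  have hy₀Y := hbY y₀.2
  have hy₀0 := YL_ne_zero hy₀Y
  -- the eigenvalue argument
  have key : ∀ g ∈ HL p, g (ϖ / (y₀ : Cp)) = ϖ / (y₀ : Cp) := by
    intro g hg
    have hgK : ∀ c : K, g (c : Cp) = c := fun c => mem_fld.mp c.2 g hg
    have hroot : ∀ (n : ℕ) (ζ : Cp), ζ ^ p ^ n = 1 → ζ ∈ K := fun n ζ hζ =>
      mem_fld.mpr fun g hg => hg.2 n ζ hζ
    have hζy : ∀ y : b, g (y : Cp) / y ∈ K := by
      intro y
      obtain ⟨h3, n, h4⟩ := hbY y.2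
      refine hroot n _ ?_
      rw [div_pow, ← map_pow, mem_fld.mp h4 g hg.1, div_self]
      exact pow_ne_zero _ (YL_ne_zero (hbY y.2))
    have hζϖ : g ϖ / ϖ ∈ K := by
      refine hroot 1 _ ?_
      rw [pow_one, div_pow, ← map_pow, hϖ, map_natCast, div_self l_ne_zero]
    -- apply `g` to the relation
    have hsum : ∑ y ∈ f.support, (f y : Cp) * (y : Cp) = ϖ := by
      rw [← hf, Finsupp.linearCombination_apply, Finsupp.sum]
      refine Finset.sum_congr rfl fun y _ => ?_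
      rw [Algebra.smul_def]
      rfl
    have h4 : ∑ y ∈ f.support, (f y * (⟨_, hζy y⟩ - ⟨_, hζϖ⟩ : K)) • ((y : b) : Cp) = 0 := by
      have h5 := congrArg g hsum
      rw [map_sum] at h5
      have h6 : ∑ y ∈ f.support, (g ϖ / ϖ) * ((f y : Cp) * (y : Cp)) = g ϖ := by
        rw [← Finset.mul_sum, hsum, div_mul_cancel₀ _ hϖ0]
      rw [← sub_eq_zero.mpr (h5.trans h6.symm), ← Finset.sum_sub_distrib]
      refine Finset.sum_congr rfl fun y _ => ?_
      rw [Algebra.smul_def, map_mul, map_mul, map_sub, hgK]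
      change (f y : Cp) * (g (y : Cp) / y - g ϖ / ϖ) * y = _
      have hy0 := YL_ne_zero (hbY y.2)
      field_simp
    have h7 := linearIndependent_iff'.mp hbli f.support _ h4 y₀ (Finsupp.mem_support_iff.mpr hy₀)
    have h8 : (⟨_, hζy y₀⟩ : K) = ⟨_, hζϖ⟩ := sub_eq_zero.mp ((mul_eq_zero.mp h7).resolve_left hy₀)
    have h9 := congrArg Subtype.val h8
    change g (y₀ : Cp) / y₀ = g ϖ / ϖ at h9
    rw [map_div₀]
    have hgy : g (y₀ : Cp) ≠ 0 := by rwa [Ne, map_eq_zero]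
    rw [div_eq_div_iff hy₀0 hϖ0] at h9
    rw [div_eq_div_iff hgy hy₀0]
    linear_combination -h9
  obtain ⟨h3, n, h4⟩ := hy₀Y
  obtain ⟨k, hk⟩ := norm_of_HL hp2 (div_ne_zero hϖ0 hy₀0) key (n := n + 1) (by
    rw [div_pow]
    refine div_mem ?_ ?_
    · rw [pow_succ', pow_mul, hϖ]
      exact pow_mem (IntermediateField.natCast_mem _ p) _
    · rw [pow_succ, pow_mul]
      exact pow_mem h4 _)
  rw [norm_div, h3, div_one] at hk
  exact norm_varpi hϖ k hk

end Fermat.Agent.OrdP
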